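import Mathlib

/-!
# Program FF (S19), core, part 1: graph (Grassmannian chart) coordinates over a valuation ring

Owner: helper1.  Namespace `Fermat.Agent.FF`, prefix `ffcd`.  Mathlib only.

`ι` a finite index type (the index set of an integral basis of `L(m D_∞)`), `J : Finset ι` a chart
(the free coordinates).  The graph of a matrix `Z` over `J` is
`ffcdGraph J Z = {v | ∀ i ∉ J, v i = ∑ j ∈ J, Z j i * v j}`; only the entries `Z j i` with
`j ∈ J`, `i ∉ J` matter (a matrix is NORMALISED, `FfcdNorm J Z`, when the other entries vanish).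

* `ffcdVec`, `ffcdVec_mem`, `ffcd_eq_sum_vec` : the standard basis of a graph;
* `ffcd_graph_injective` : a normalised matrix is determined by its graph;
* `ffcd_graph_map` : graphs commute with ring homomorphisms applied entrywise;
* **`ffcd_chart`** : `A` a valuation subring of `K` with residue map `res : A →+* k`;
  `U ⊂ K^ι` of dimension `|J|`, `Uk ⊂ k^ι` with `Uk ∩ k^{Jᶜ} = 0`, and every integral vector of `U`
  reduces into `Uk`.  Then `U` is the graph over `J` of a matrix with entries in `A`, and `Uk` is the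
  graph of its reduction (so `Uk` is exactly the reduction of the integral vectors of `U`).
-/

set_option autoImplicit false
set_option linter.unusedSectionVars false
set_option linter.unusedVariables false

noncomputable section

namespace Fermat.Agent.FF

open Module

section Graph

variable {R : Type*} [CommRing R] {ι : Type*} [DecidableEq ι]

/-- the graph over the chart `J` of the matrix `Z`. -/
def ffcdGraph (J : Finset ι) (Z : ι → ι → R) : Submodule R (ι → R) where
  carrier := {v | ∀ i, i ∉ J → v i = ∑ j ∈ J, Z j i * v j}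
  add_mem' := by
    intro a b ha hb i hi
    simp only [Pi.add_apply, ha i hi, hb i hi, mul_add, Finset.sum_add_distrib]
  zero_mem' := by
    intro i _
    simp
  smul_mem' := by
    intro c a ha i hi
    simp only [Pi.smul_apply, smul_eq_mul, ha i hi, Finset.mul_sum]
    exact Finset.sum_congr rfl fun j _ => by ring

theorem ffcd_mem_graph {J : Finset ι} {Z : ι → ι → R} {v : ι → R} :
    v ∈ ffcdGraph J Z ↔ ∀ i, i ∉ J → v i = ∑ j ∈ J, Z j i * v j := Iff.rfl

/-- a matrix is normalised for the chart `J` when only the `J × Jᶜ` entries are nonzero. -/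
def FfcdNorm (J : Finset ι) (Z : ι → ι → R) : Prop := ∀ j i, (j ∉ J ∨ i ∈ J) → Z j i = 0

/-- the standard basis vector of the graph attached to `j ∈ J`. -/
def ffcdVec (J : Finset ι) (Z : ι → ι → R) (j : ι) : ι → R :=
  fun i => if i ∈ J then (if i = j then 1 else 0) else Z j i

theorem ffcdVec_apply_mem {J : Finset ι} (Z : ι → ι → R) (j : ι) {i : ι} (hi : i ∈ J) :
    ffcdVec J Z j i = if i = j then 1 else 0 := by
  simp [ffcdVec, hi]

theorem ffcdVec_apply_notMem {J : Finset ι} (Z : ι → ι → R) (j : ι) {i : ι} (hi : i ∉ J) :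
    ffcdVec J Z j i = Z j i := by
  simp [ffcdVec, hi]

theorem ffcdVec_mem (J : Finset ι) (Z : ι → ι → R) {j : ι} (hj : j ∈ J) :
    ffcdVec J Z j ∈ ffcdGraph J Z := by
  intro i hi
  rw [ffcdVec_apply_notMem Z j hi, Finset.sum_eq_single j]
  · rw [ffcdVec_apply_mem Z j hj, if_pos rfl, mul_one]
  · intro b hb hbj
    rw [ffcdVec_apply_mem Z j hb, if_neg hbj, mul_zero]
  · intro h
    exact absurd hj h

theorem ffcd_eq_sum_vec {J : Finset ι} {Z : ι → ι → R} {v : ι → R} (hv : v ∈ ffcdGraph J Z) :
    v = ∑ j ∈ J, v j • ffcdVec J Z j := by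
  funext i
  simp only [Finset.sum_apply, Pi.smul_apply, smul_eq_mul]
  by_cases hi : i ∈ J
  · rw [Finset.sum_eq_single i]
    · rw [ffcdVec_apply_mem Z i hi, if_pos rfl, mul_one]
    · intro b _ hb
      rw [ffcdVec_apply_mem Z b hi, if_neg (Ne.symm hb), mul_zero]
    · intro h
      exact absurd hi h
  · rw [hv i hi]
    refine Finset.sum_congr rfl fun j _ => ?_
    rw [ffcdVec_apply_notMem Z j hi, mul_comm]

/-- a vector which is a combination of the standard vectors lies in the graph. -/
theorem ffcd_sum_vec_mem (J : Finset ι) (Z : ι → ι → R) (c : ι → R) :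
    ∑ j ∈ J, c j • ffcdVec J Z j ∈ ffcdGraph J Z :=
  Submodule.sum_mem _ fun j hj => Submodule.smul_mem _ _ (ffcdVec_mem J Z hj)

/-- a normalised matrix is determined by its graph. -/
theorem ffcd_graph_injective {J : Finset ι} {Z Z' : ι → ι → R} (hZ : FfcdNorm J Z)
    (hZ' : FfcdNorm J Z') (h : ffcdGraph J Z = ffcdGraph J Z') : Z = Z' := by
  funext j i
  by_cases hji : j ∉ J ∨ i ∈ J
  · rw [hZ j i hji, hZ' j i hji]
  · push Not at hji
    obtain ⟨hj, hi⟩ := hji
    have hmem : ffcdVec J Z j ∈ ffcdGraph J Z' := h ▸ ffcdVec_mem J Z hj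
    have := hmem i hi
    rw [ffcdVec_apply_notMem Z j hi, Finset.sum_eq_single j] at this
    · rw [this, ffcdVec_apply_mem Z j hj, if_pos rfl, mul_one]
    · intro b hb hbj
      rw [ffcdVec_apply_mem Z j hb, if_neg hbj, mul_zero]
    · intro h'
      exact absurd hj h'

/-- graphs commute with ring homomorphisms applied entrywise. -/
theorem ffcd_graph_map {S : Type*} [CommRing S] (φ : R →+* S) {J : Finset ι} {Z : ι → ι → R}
    {v : ι → R} (hv : v ∈ ffcdGraph J Z) :
    (fun i => φ (v i)) ∈ ffcdGraph J (fun j i => φ (Z j i)) := by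
  intro i hi
  show φ (v i) = ∑ j ∈ J, φ (Z j i) * φ (v j)
  rw [hv i hi, map_sum]
  exact Finset.sum_congr rfl fun j _ => map_mul φ _ _

theorem ffcd_graph_map_iff {S : Type*} [CommRing S] (φ : R →+* S) (hφ : Function.Injective φ)
    {J : Finset ι} {Z : ι → ι → R} {v : ι → R} :
    (fun i => φ (v i)) ∈ ffcdGraph J (fun j i => φ (Z j i)) ↔ v ∈ ffcdGraph J Z := by
  refine ⟨fun h i hi => hφ ?_, ffcd_graph_map φ⟩
  have hthis : φ (v i) = ∑ j ∈ J, φ (Z j i) * φ (v j) := h i hi
  rw [map_sum, hthis]
  exact Finset.sum_congr rfl fun j _ => (map_mul φ _ _).symm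

/-- a vector of a graph vanishing on the chart vanishes. -/
theorem ffcd_graph_eq_zero {J : Finset ι} {Z : ι → ι → R} {v : ι → R} (hv : v ∈ ffcdGraph J Z)
    (h0 : ∀ j ∈ J, v j = 0) : v = 0 := by
  rw [ffcd_eq_sum_vec hv]
  exact Finset.sum_eq_zero fun j hj => by rw [h0 j hj, zero_smul]

/-- the graph matrix: its columns are the standard vectors `ffcdVec J Z j`, `j ∈ J`. -/
def ffcdMat (J : Finset ι) (Z : ι → ι → R) : Matrix ι J R := fun i j => ffcdVec J Z j i

theorem ffcdMat_apply (J : Finset ι) (Z : ι → ι → R) (i : ι) (j : J) :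
    ffcdMat J Z i j = ffcdVec J Z j i := rfl

/-- the rows of the graph matrix in the chart form the identity matrix. -/
theorem ffcdMat_submatrix (J : Finset ι) (Z : ι → ι → R) :
    (ffcdMat J Z).submatrix (Subtype.val : J → ι) id = 1 := by
  ext a b
  rw [Matrix.submatrix_apply, ffcdMat_apply, ffcdVec_apply_mem Z _ a.2, Matrix.one_apply]
  simp only [id_eq, Subtype.ext_iff]

theorem ffcdMat_map {S : Type*} [CommRing S] (φ : R →+* S) (J : Finset ι) (Z : ι → ι → R) :
    (ffcdMat J Z).map φ = ffcdMat J (fun j i => φ (Z j i)) := by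
  ext i j
  rw [Matrix.map_apply, ffcdMat_apply, ffcdMat_apply]
  by_cases hi : i ∈ J
  · rw [ffcdVec_apply_mem _ _ hi, ffcdVec_apply_mem _ _ hi]
    split_ifs <;> simp
  · rw [ffcdVec_apply_notMem _ _ hi, ffcdVec_apply_notMem _ _ hi]

theorem ffcdMat_mulVec (J : Finset ι) (Z : ι → ι → R) (c : J → R) :
    (ffcdMat J Z).mulVec c = ∑ j : J, c j • ffcdVec J Z j := by
  funext i
  rw [Matrix.mulVec, dotProduct, Finset.sum_apply]
  refine Finset.sum_congr rfl fun j _ => ?_
  rw [ffcdMat_apply, Pi.smul_apply, smul_eq_mul, mul_comm]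

/-- the range of the graph matrix is the graph. -/
theorem ffcd_range_mat (J : Finset ι) (Z : ι → ι → R) :
    LinearMap.range (ffcdMat J Z).mulVecLin = ffcdGraph J Z := by
  apply le_antisymm
  · rintro _ ⟨c, rfl⟩
    rw [Matrix.mulVecLin_apply, ffcdMat_mulVec]
    exact Submodule.sum_mem _ fun j _ => Submodule.smul_mem _ _ (ffcdVec_mem J Z j.2)
  · intro v hv
    refine ⟨fun j => v j, ?_⟩
    rw [Matrix.mulVecLin_apply, ffcdMat_mulVec]
    conv_rhs => rw [ffcd_eq_sum_vec hv]
    exact (Finset.sum_coe_sort J fun j => v j • ffcdVec J Z j)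

end Graph

section Chart

variable {K : Type*} [Field K] (A : ValuationSubring K) {k : Type*} [Field k] (res : A →+* k)
  {ι : Type*} [Fintype ι] [DecidableEq ι]

/-- **the key lemma**: if the integral vectors of `U` reduce into `Uk` and `Uk` meets the coordinate
subspace `k^{Jᶜ}` trivially, then on every vector of `U` the maximal valuation of the entries is
attained on `J`. -/
theorem ffcd_val_le (hker : ∀ a : A, res a = 0 ↔ a ∈ IsLocalRing.maximalIdeal A)
    (U : Submodule K (ι → K)) (Uk : Submodule k (ι → k)) (J : Finset ι)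
    (hred : ∀ v ∈ U, ∀ hv : ∀ i, v i ∈ A, (fun i => res ⟨v i, hv i⟩) ∈ Uk)
    (htriv : ∀ w ∈ Uk, (∀ j ∈ J, w j = 0) → w = 0)
    {v : ι → K} (hvU : v ∈ U) (i : ι) (hi : v i ≠ 0) :
    ∃ j ∈ J, A.valuation (v i) ≤ A.valuation (v j) := by
  classical
  obtain ⟨i₀, -, hmax⟩ := Finset.exists_max_image Finset.univ (fun i => A.valuation (v i))
    ⟨i, Finset.mem_univ i⟩
  have hc0 : v i₀ ≠ 0 := by
    intro h0
    have := hmax i (Finset.mem_univ i)
    rw [h0, map_zero] at this
    exact hi ((map_eq_zero _).mp (le_antisymm this zero_le))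
  set c := v i₀ with hc
  -- the scaled vector
  have hv'U : c⁻¹ • v ∈ U := U.smul_mem _ hvU
  have hint : ∀ i', (c⁻¹ • v) i' ∈ A := by
    intro i'
    rw [← A.valuation_le_one_iff, Pi.smul_apply, smul_eq_mul, map_mul, map_inv₀]
    have h1 := hmax i' (Finset.mem_univ i')
    have hcv : A.valuation c ≠ 0 := (map_ne_zero _).mpr hc0
    rw [inv_mul_le_iff₀ (zero_lt_iff.mpr hcv), mul_one]
    exact h1
  have hw := hred _ hv'U hint
  -- the reduction is nonzero at `i₀`
  have hw0 : (fun i' => res ⟨(c⁻¹ • v) i', hint i'⟩) ≠ 0 := by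
    intro h0
    have := congrFun h0 i₀
    simp only [Pi.zero_apply] at this
    have h1 : (⟨(c⁻¹ • v) i₀, hint i₀⟩ : A) = 1 := by
      apply Subtype.ext
      show (c⁻¹ • v) i₀ = 1
      rw [Pi.smul_apply, smul_eq_mul, ← hc, inv_mul_cancel₀ hc0]
    rw [h1, map_one] at this
    exact one_ne_zero this
  -- hence nonzero at some `j ∈ J`
  have : ∃ j ∈ J, res ⟨(c⁻¹ • v) j, hint j⟩ ≠ 0 := by
    by_contra hcon
    push Not at hcon
    exact hw0 (htriv _ hw hcon)
  obtain ⟨j, hj, hjne⟩ := this
  refine ⟨j, hj, ?_⟩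
  -- `c⁻¹ v j` is a unit of `A`
  have hnm : (⟨(c⁻¹ • v) j, hint j⟩ : A) ∉ IsLocalRing.maximalIdeal A := fun h =>
    hjne ((hker _).mpr h)
  rw [A.valuation_lt_one_iff] at hnm
  have h1 : A.valuation ((c⁻¹ • v) j) = 1 :=
    le_antisymm ((A.valuation_le_one_iff _).mpr (hint j)) (not_lt.mp hnm)
  rw [Pi.smul_apply, smul_eq_mul, map_mul, map_inv₀] at h1
  have hcv : A.valuation c ≠ 0 := (map_ne_zero _).mpr hc0
  have h2 : A.valuation (v j) = A.valuation c := by
    have := congrArg (fun x => A.valuation c * x) h1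
    simp only [mul_one] at this
    rw [← mul_assoc, mul_inv_cancel₀ hcv, one_mul] at this
    exact this
  rw [h2]
  exact hmax i (Finset.mem_univ i)

/-- **graph coordinates over a valuation ring.** -/
theorem ffcd_chart (hker : ∀ a : A, res a = 0 ↔ a ∈ IsLocalRing.maximalIdeal A)
    (U : Submodule K (ι → K)) (Uk : Submodule k (ι → k)) (J : Finset ι)
    (hdim : finrank K U = J.card)
    (hred : ∀ v ∈ U, ∀ hv : ∀ i, v i ∈ A, (fun i => res ⟨v i, hv i⟩) ∈ Uk)
    (htriv : ∀ w ∈ Uk, (∀ j ∈ J, w j = 0) → w = 0) :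
    ∃ Z : ι → ι → A, FfcdNorm J Z ∧ U = ffcdGraph J (fun j i => (Z j i : K)) ∧
      Uk = ffcdGraph J (fun j i => res (Z j i)) := by
  classical
  have hval := fun {v : ι → K} (hvU : v ∈ U) (i : ι) (hi : v i ≠ 0) =>
    ffcd_val_le A res hker U Uk J hred htriv hvU i hi
  -- vectors of `U` vanishing on `J` vanish
  have hinj0 : ∀ v ∈ U, (∀ j ∈ J, v j = 0) → v = 0 := by
    intro v hvU h0
    funext i
    by_contra hi
    obtain ⟨j, hj, hle⟩ := hval hvU i hi
    rw [h0 j hj, map_zero] at hle
    exact hi ((map_eq_zero _).mp (le_antisymm hle zero_le))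
  -- the projection to the `J`-coordinates
  let π : U →ₗ[K] (J → K) :=
    { toFun := fun v j => (v : ι → K) j
      map_add' := fun _ _ => rfl
      map_smul' := fun _ _ => rfl }
  have hπinj : Function.Injective π := by
    rw [← LinearMap.ker_eq_bot, LinearMap.ker_eq_bot']
    intro v hv
    apply Subtype.ext
    apply hinj0 _ v.2
    intro j hj
    exact congrFun hv ⟨j, hj⟩
  have hfr : finrank K U = finrank K (J → K) := by
    rw [hdim, Module.finrank_fintype_fun_eq_card, Fintype.card_coe]
  have hπsurj : Function.Surjective π :=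
    (LinearMap.injective_iff_surjective_of_finrank_eq_finrank hfr).mp hπinj
  -- the standard vectors
  have hw : ∀ j : ι, ∃ w : ι → K, j ∈ J → (w ∈ U ∧ ∀ j' ∈ J, w j' = if j' = j then 1 else 0) := by
    intro j
    by_cases hj : j ∈ J
    · obtain ⟨w, hw⟩ := hπsurj (Pi.single ⟨j, hj⟩ 1)
      refine ⟨w, fun _ => ⟨w.2, fun j' hj' => ?_⟩⟩
      have := congrFun hw ⟨j', hj'⟩
      show (w : ι → K) j' = _
      rw [show (w : ι → K) j' = π w ⟨j', hj'⟩ from rfl, this, Pi.single_apply]
      simp only [Subtype.mk.injEq]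
    · exact ⟨0, fun h => absurd h hj⟩
  choose w hw using hw
  -- integrality of the standard vectors
  have hwint : ∀ j ∈ J, ∀ i, w j i ∈ A := by
    intro j hj i
    by_cases hi0 : w j i = 0
    · rw [hi0]
      exact A.zero_mem
    · obtain ⟨j', hj', hle⟩ := hval (hw j hj).1 i hi0
      rw [← A.valuation_le_one_iff]
      refine le_trans hle ?_
      rw [(hw j hj).2 j' hj']
      split_ifs
      · rw [map_one]
      · rw [map_zero]
        exact zero_le
  -- the matrix
  let Z : ι → ι → A := fun j i =>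
    if h : j ∈ J ∧ i ∉ J then ⟨w j i, hwint j h.1 i⟩ else 0
  have hZnorm : FfcdNorm J Z := by
    intro j i hji
    have : ¬ (j ∈ J ∧ i ∉ J) := by
      rintro ⟨h1, h2⟩
      rcases hji with h | h
      · exact h h1
      · exact h2 h
    simp only [Z, dif_neg this]
  have hZK : ∀ j ∈ J, ∀ i, i ∉ J → ((Z j i : A) : K) = w j i := by
    intro j hj i hi
    simp only [Z, dif_pos (And.intro hj hi)]
  -- `w j` is the standard vector of the graph
  have hwvec : ∀ j ∈ J, w j = ffcdVec J (fun j i => ((Z j i : A) : K)) j := by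
    intro j hj
    funext i
    by_cases hi : i ∈ J
    · rw [ffcdVec_apply_mem _ j hi, (hw j hj).2 i hi]
    · rw [ffcdVec_apply_notMem _ j hi, hZK j hj i hi]
  have hU : U = ffcdGraph J (fun j i => ((Z j i : A) : K)) := by
    apply le_antisymm
    · intro v hvU
      -- `v - Σ v j • w j` vanishes on `J`
      have hsum : (∑ j ∈ J, v j • w j) ∈ U :=
        Submodule.sum_mem _ fun j hj => U.smul_mem _ (hw j hj).1
      have hdiff : v - ∑ j ∈ J, v j • w j = 0 := by
        apply hinj0 _ (U.sub_mem hvU hsum)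
        intro j' hj'
        simp only [Pi.sub_apply, Finset.sum_apply, Pi.smul_apply, smul_eq_mul]
        rw [Finset.sum_eq_single j']
        · rw [(hw j' hj').2 j' hj', if_pos rfl, mul_one, sub_self]
        · intro b hb hbj
          rw [(hw b hb).2 j' hj', if_neg (Ne.symm hbj), mul_zero]
        · intro h
          exact absurd hj' h
      rw [sub_eq_zero.mp hdiff]
      have : ∑ j ∈ J, v j • w j =
          ∑ j ∈ J, v j • ffcdVec J (fun j i => ((Z j i : A) : K)) j :=
        Finset.sum_congr rfl fun j hj => by rw [hwvec j hj]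
      rw [this]
      exact ffcd_sum_vec_mem J _ _
    · intro v hv
      rw [ffcd_eq_sum_vec hv]
      refine Submodule.sum_mem _ fun j hj => U.smul_mem _ ?_
      rw [← hwvec j hj]
      exact (hw j hj).1
  -- the reductions of the standard vectors
  have hwall : ∀ j ∈ J, ∀ i, w j i ∈ A := hwint
  have hwk : ∀ j (hj : j ∈ J), (fun i => res ⟨w j i, hwall j hj i⟩) =
      ffcdVec J (fun j i => res (Z j i)) j := by
    intro j hj
    funext i
    by_cases hi : i ∈ J
    · rw [ffcdVec_apply_mem _ j hi]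
      have h1 := (hw j hj).2 i hi
      by_cases hij : i = j
      · rw [if_pos hij]
        have : (⟨w j i, hwall j hj i⟩ : A) = 1 :=
          Subtype.ext (by show w j i = 1; rw [h1, if_pos hij])
        rw [this, map_one]
      · rw [if_neg hij]
        have : (⟨w j i, hwall j hj i⟩ : A) = 0 :=
          Subtype.ext (by show w j i = 0; rw [h1, if_neg hij])
        rw [this, map_zero]
    · rw [ffcdVec_apply_notMem _ j hi]
      congr 1
      exact Subtype.ext (hZK j hj i hi).symm
  have hwkmem : ∀ j ∈ J, ffcdVec J (fun j i => res (Z j i)) j ∈ Uk := by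
    intro j hj
    rw [← hwk j hj]
    exact hred _ (hw j hj).1 _
  have hUk : Uk = ffcdGraph J (fun j i => res (Z j i)) := by
    apply le_antisymm
    · intro u huU
      have hsum : (∑ j ∈ J, u j • ffcdVec J (fun j i => res (Z j i)) j) ∈ Uk :=
        Submodule.sum_mem _ fun j hj => Uk.smul_mem _ (hwkmem j hj)
      have hdiff : u - ∑ j ∈ J, u j • ffcdVec J (fun j i => res (Z j i)) j = 0 := by
        apply htriv _ (Uk.sub_mem huU hsum)
        intro j' hj'
        simp only [Pi.sub_apply, Finset.sum_apply, Pi.smul_apply, smul_eq_mul]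
        rw [Finset.sum_eq_single j']
        · rw [ffcdVec_apply_mem _ j' hj', if_pos rfl, mul_one, sub_self]
        · intro b _ hbj
          rw [ffcdVec_apply_mem _ b hj', if_neg (Ne.symm hbj), mul_zero]
        · intro h
          exact absurd hj' h
      rw [sub_eq_zero.mp hdiff]
      exact ffcd_sum_vec_mem J _ _
    · intro u hu
      rw [ffcd_eq_sum_vec hu]
      exact Submodule.sum_mem _ fun j hj => Uk.smul_mem _ (hwkmem j hj)
  exact ⟨Z, hZnorm, hU, hUk⟩

end Chart

end Fermat.Agent.FF
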