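import Mathlib
import Fermat.Agent.V.RR.Pack
import Fermat.Prelude.Def_AlgebraicCurve_BaseChangeGalois
import Fermat.Agent.FF.Core.Graph

/-!
# Program FF (S19), core, part 2 (C5a): the interface of `FF/Core/Div.lean`

Owner: helper1.  Namespace `Fermat.Agent.FF`, prefix `ffcd`.

Abstract context: `K` a field, `A : ValuationSubring K`, `k := ResidueField A`, function fields
`F / K` and `Fk / k`, a map `r : Place K F → Place k Fk` (reduction of points), a subgroup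
`Gam ≤ SemilinearAut K F` (the inertia group), a finite subgroup `Γ ≤ Pic0 K F`.

* `ffcdPush r` : the push-forward `r_*` of divisors;
* `FfcdLevel`  : INPUT, one level of the integral structure: a `Gam`-fixed basis `b` of `L(𝔡)`,
  a basis `bk` of `L(r_* 𝔡)`, and reduction of sections in coordinates (`(E1)+(E4)`);
* `FfcdInt`    : INPUT, the global facts (`(E3)`, `(E3')`, `(G1)`);
* `FfcdData`   : OUTPUT consumed by `FF/Core/Delta.lean`.
-/

set_option autoImplicit false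

noncomputable section

namespace Fermat.Agent.FF

open AlgebraicCurve IsLocalRing Module

variable {K : Type*} [Field K] (A : ValuationSubring K)
variable {F : Type*} [Field F] [Algebra K F]
variable {Fk : Type*} [Field Fk] [Algebra (ResidueField A) Fk]

/-- the push-forward of divisors along a map of places. -/
def ffcdPush {K F K' F' : Type*} [Field K] [Field F] [Algebra K F] [Field K'] [Field F']
    [Algebra K' F'] (r : Place K F → Place K' F') : Divisor K F →+ Divisor K' F' :=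
  Finsupp.mapDomain.addMonoidHom r

/-- the coordinate map `K^ι → F`, `v ↦ ∑ v i • b i`. -/
abbrev ffcdReal (K : Type*) {F : Type*} [Field K] [Field F] [Algebra K F] {ι : Type*} [Fintype ι]
    (b : ι → F) : (ι → K) →ₗ[K] F := Fintype.linearCombination K b

/-- **INPUT, one level.**  `b` is a `Gam`-fixed `K`-basis of `L(𝔡)`, `bk` a `k`-basis of
`L(r_* 𝔡)`, and sections with integral coordinates reduce coordinatewise: for an effective `D'`
whose reduction avoids the bad set `T`, `∑ v i • b i ∈ L(𝔡 - D')` with `v i ∈ A` implies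
`∑ res (v i) • bk i ∈ L(r_* 𝔡 - r_* D')`. -/
structure FfcdLevel (r : Place K F → Place (ResidueField A) Fk)
    (Gam : Subgroup (SemilinearAut K F)) (T : Finset (Place (ResidueField A) Fk))
    (𝔡 : Divisor K F) {ι : Type*} [Fintype ι] (b : ι → F) (bk : ι → Fk) : Prop where
  li : LinearIndependent K b
  span : Submodule.span K (Set.range b) = riemannRochSpace 𝔡
  lik : LinearIndependent (ResidueField A) bk
  spank : Submodule.span (ResidueField A) (Set.range bk) = riemannRochSpace (ffcdPush r 𝔡)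
  fixed : ∀ σ ∈ Gam, ∀ i, σ • b i = b i
  stable : ∀ σ ∈ Gam, σ • 𝔡 = 𝔡
  red : ∀ D' : Divisor K F, 0 ≤ D' → (∀ Q ∈ T, ffcdPush r D' Q = 0) → ∀ v : ι → A,
    (∑ i, ((v i : A) : K) • b i) ∈ riemannRochSpace (𝔡 - D') →
    (∑ i, residue A (v i) • bk i) ∈ riemannRochSpace (ffcdPush r 𝔡 - ffcdPush r D')

/-- **INPUT, global facts.**  `T` is a finite set of bad places of the special fibre (cusps,
ramification of the chart coordinate). -/
structure FfcdInt (r : Place K F → Place (ResidueField A) Fk)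
    (Gam : Subgroup (SemilinearAut K F)) (T : Finset (Place (ResidueField A) Fk)) : Prop where
  /-- `(E3)`: principal divisors reduce to principal divisors. -/
  prin : ∀ D : Divisor K F, D ∈ Divisor.principal (K := K) (F := F) →
    ffcdPush r D ∈ Divisor.principal (K := ResidueField A) (F := Fk)
  /-- `(E3)`: semicontinuity, for effective divisors reducing off `T`. -/
  semi : ∀ D : Divisor K F, 0 ≤ D → (∀ Q ∈ T, ffcdPush r D Q = 0) →
    finrank K (riemannRochSpace D) ≤ finrank (ResidueField A) (riemannRochSpace (ffcdPush r D))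
  /-- `(E3')`: good places lift to `Gam`-fixed places. -/
  lift : ∀ Q : Place (ResidueField A) Fk, Q ∉ T →
    ∃ P : Place K F, r P = Q ∧ ∀ σ ∈ Gam, σ • P = P
  /-- `(G1)`: the reduction of places is `Gam`-invariant. -/
  rinv : ∀ σ ∈ Gam, ∀ P : Place K F, r (σ • P) = r P
  /-- `(G1)`: `Gam` preserves the valuation ring. -/
  base_mem : ∀ σ ∈ Gam, ∀ a : K, a ∈ A → SemilinearAut.baseAut σ a ∈ A

/-- **OUTPUT of C5a, divisor part** (see the blueprint §3 C5a).  Special-fibre divisors are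
written through `r_*`: `D̃₀ = r_* D0`, `Ẽ = r_* E`, `𝔡̃ = r_* 𝔡`, `D̃_c = Dk c`. -/
structure FfcdDiv (r : Place K F → Place (ResidueField A) Fk)
    (Gam : Subgroup (SemilinearAut K F)) (T : Finset (Place (ResidueField A) Fk))
    (Γ : AddSubgroup (Pic0 K F)) (g : ℕ) (𝔡 : Divisor K F) where
  /-- reduction of classes -/
  rho : Γ →+ Pic0 (ResidueField A) Fk
  rho_smul : ∀ σ ∈ Gam, ∀ γ γ' : Γ, (γ' : Pic0 K F) = σ • (γ : Pic0 K F) → rho γ' = rho γ
  /-- the base divisor `D₀` and the auxiliary divisor `E` -/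
  D0 : Divisor K F
  E : Divisor K F
  D0_nonneg : 0 ≤ D0
  D0_deg : Divisor.degree D0 = g
  D0_off : ∀ Q ∈ T, ffcdPush r D0 Q = 0
  D0_fix : ∀ σ ∈ Gam, σ • D0 = D0
  E_nonneg : 0 ≤ E
  E_deg : Divisor.degree E = 2 * Divisor.degree 𝔡 - 3 * g
  E_off : ∀ Q ∈ T, ffcdPush r E Q = 0
  E_fix : ∀ σ ∈ Gam, σ • E = E
  /-- the divisors `D_γ` and `D̃_c` -/
  D : Γ → Divisor K F
  Dk : Pic0 (ResidueField A) Fk → Divisor (ResidueField A) Fk
  D_nonneg : ∀ γ, 0 ≤ D γ
  D_deg : ∀ γ, Divisor.degree (D γ) = g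
  D_class : ∀ γ (h : D γ - D0 ∈ Divisor.degZero (K := K) (F := F)),
    Pic0.mk ⟨D γ - D0, h⟩ = (γ : Pic0 K F)
  D_push : ∀ γ, ffcdPush r (D γ) = Dk (rho γ)
  D_smul : ∀ σ ∈ Gam, ∀ γ γ' : Γ, (γ' : Pic0 K F) = σ • (γ : Pic0 K F) → D γ' = σ • D γ
  Dk_off : ∀ γ, ∀ Q ∈ T, Dk (rho γ) Q = 0
  /-- the effective divisor in the class of `D_γ + D_γ' - D₀` is `D_{γ+γ'}`, on both fibres -/
  D_unique : ∀ (γ γ' : Γ) (D'' : Divisor K F), 0 ≤ D'' →
    D'' - (D γ + D γ' - D0) ∈ Divisor.principal (K := K) (F := F) → D'' = D (γ + γ')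
  Dk_unique : ∀ (γ γ' : Γ) (D'' : Divisor (ResidueField A) Fk), 0 ≤ D'' →
    D'' - (Dk (rho γ) + Dk (rho γ') - ffcdPush r D0) ∈
      Divisor.principal (K := ResidueField A) (F := Fk) → D'' = Dk (rho (γ + γ'))
  /-- `(G-i)` and `(G-ii)` at the closed point -/
  Gi : ∀ γ γ' : Γ, finrank (ResidueField A) (riemannRochSpace
    ((2 : ℕ) • ffcdPush r 𝔡 - Dk (rho γ) - Dk (rho γ') - ffcdPush r E)) = 1
  Gii : ∀ γ γ' : Γ, finrank (ResidueField A) (riemannRochSpace
    (Dk (rho γ) + Dk (rho γ') - ffcdPush r D0)) = 1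

/-- **OUTPUT of C5a**: the divisor part plus the charts and graph coordinates. -/
structure FfcdData (r : Place K F → Place (ResidueField A) Fk)
    (Gam : Subgroup (SemilinearAut K F)) (T : Finset (Place (ResidueField A) Fk))
    (Γ : AddSubgroup (Pic0 K F)) (g : ℕ) (𝔡 : Divisor K F)
    {ι₁ ι₂ ι₃ : Type*} [Fintype ι₁] [Fintype ι₂] [Fintype ι₃] [DecidableEq ι₁] [DecidableEq ι₂]
    [DecidableEq ι₃]
    (b₁ : ι₁ → F) (bk₁ : ι₁ → Fk) (b₂ : ι₂ → F) (bk₂ : ι₂ → Fk) (b₃ : ι₃ → F) (bk₃ : ι₃ → Fk)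
    extends FfcdDiv A r Gam T Γ g 𝔡 where
  /-- charts and graph coordinates at level one -/
  J : Pic0 (ResidueField A) Fk → Finset ι₁
  Z : Γ → ι₁ → ι₁ → A
  J_card : ∀ γ, ((J (rho γ)).card : ℤ) = Divisor.degree 𝔡 + 1 - 2 * g
  Z_norm : ∀ γ, FfcdNorm (J (rho γ)) (Z γ)
  Z_gen : ∀ γ, (ffcdGraph (J (rho γ)) (fun j i => ((Z γ j i : A) : K))).map (ffcdReal K b₁) =
    riemannRochSpace (𝔡 - D γ)
  Z_spec : ∀ γ, (ffcdGraph (J (rho γ)) (fun j i => residue A (Z γ j i))).map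
    (ffcdReal (ResidueField A) bk₁) = riemannRochSpace (ffcdPush r 𝔡 - Dk (rho γ))
  Z_smul : ∀ σ ∈ Gam, ∀ γ γ' : Γ, (γ' : Pic0 K F) = σ • (γ : Pic0 K F) →
    ∀ j i, ((Z γ' j i : A) : K) = SemilinearAut.baseAut σ ((Z γ j i : A) : K)
  Z_inj : ∀ γ γ' : Γ, rho γ = rho γ' → Z γ = Z γ' → γ = γ'
  Z_res : ∀ γ γ' : Γ, rho γ = rho γ' → ∀ j i, residue A (Z γ j i) = residue A (Z γ' j i)
  /-- the fixed lattice `L(2𝔡 - E)` -/
  JE : Finset ι₂
  ZE : ι₂ → ι₂ → A
  ZE_norm : FfcdNorm JE ZE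
  ZE_fix : ∀ σ ∈ Gam, ∀ j i, SemilinearAut.baseAut σ ((ZE j i : A) : K) = ((ZE j i : A) : K)
  ZE_gen : (ffcdGraph JE (fun j i => ((ZE j i : A) : K))).map (ffcdReal K b₂) =
    riemannRochSpace ((2 : ℕ) • 𝔡 - E)
  ZE_spec : (ffcdGraph JE (fun j i => residue A (ZE j i))).map (ffcdReal (ResidueField A) bk₂) =
    riemannRochSpace ((2 : ℕ) • ffcdPush r 𝔡 - ffcdPush r E)
  /-- the fixed lattice `L(2𝔡 - E - D₀)` -/
  JF : Finset ι₂
  ZF : ι₂ → ι₂ → A
  ZF_norm : FfcdNorm JF ZF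
  ZF_fix : ∀ σ ∈ Gam, ∀ j i, SemilinearAut.baseAut σ ((ZF j i : A) : K) = ((ZF j i : A) : K)
  ZF_gen : (ffcdGraph JF (fun j i => ((ZF j i : A) : K))).map (ffcdReal K b₂) =
    riemannRochSpace ((2 : ℕ) • 𝔡 - E - D0)
  ZF_spec : (ffcdGraph JF (fun j i => residue A (ZF j i))).map (ffcdReal (ResidueField A) bk₂) =
    riemannRochSpace ((2 : ℕ) • ffcdPush r 𝔡 - ffcdPush r E - ffcdPush r D0)
  /-- the fixed lattice `L(3𝔡 - E - D₀)` -/
  JG : Finset ι₃
  ZG : ι₃ → ι₃ → A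
  ZG_norm : FfcdNorm JG ZG
  ZG_fix : ∀ σ ∈ Gam, ∀ j i, SemilinearAut.baseAut σ ((ZG j i : A) : K) = ((ZG j i : A) : K)
  ZG_gen : (ffcdGraph JG (fun j i => ((ZG j i : A) : K))).map (ffcdReal K b₃) =
    riemannRochSpace ((3 : ℕ) • 𝔡 - E - D0)
  ZG_spec : (ffcdGraph JG (fun j i => residue A (ZG j i))).map (ffcdReal (ResidueField A) bk₃) =
    riemannRochSpace ((3 : ℕ) • ffcdPush r 𝔡 - ffcdPush r E - ffcdPush r D0)

end Fermat.Agent.FF
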