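import Mathlib
import Fermat.Agent.FF.Core.DivSpec

/-!
# Program FF (S19), core (C5a): push-forward of divisors and of divisor classes

Owner: helper1.  Prefix `ffcd`.

`r : Place K F → Place K' F'` any map between the places of two function fields all of whose places
have degree one.  `ffcdPush r` preserves degrees and effectivity; if it maps principal divisors to
principal divisors it induces `ffcdRho : Pic0 K F →+ Pic0 K' F'`.  Sections `s` of `r` give lifts
of divisors.
-/

set_option autoImplicit false
set_option linter.unusedSectionVars false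
set_option linter.unusedVariables false

noncomputable section

namespace Fermat.Agent.FF

open AlgebraicCurve Module

section Push

variable {K F K' F' : Type*} [Field K] [Field F] [Algebra K F] [Field K'] [Field F']
  [Algebra K' F'] (r : Place K F → Place K' F')

theorem ffcdPush_apply_def (D : Divisor K F) : ffcdPush r D = Finsupp.mapDomain r D := rfl

@[simp]
theorem ffcdPush_single (P : Place K F) (n : ℤ) :
    ffcdPush r (Finsupp.single P n) = Finsupp.single (r P) n := by
  rw [ffcdPush_apply_def, Finsupp.mapDomain_single]

theorem ffcdPush_nonneg {D : Divisor K F} (hD : 0 ≤ D) : 0 ≤ ffcdPush r D :=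
  Finsupp.mapDomain_nonneg hD

theorem ffcdPush_degree (hdeg1 : ∀ v : Place K F, v.deg = 1) (hdeg1' : ∀ v : Place K' F', v.deg = 1)
    (D : Divisor K F) : Divisor.degree (ffcdPush r D) = Divisor.degree D := by
  induction D using Finsupp.induction with
  | zero => simp
  | single_add v n D _ _ ih =>
      rw [map_add, map_add, map_add, ih, ffcdPush_single, Divisor.degree_single,
        Divisor.degree_single, hdeg1, hdeg1']

/-- the value of the push-forward at a place outside the image of the support. -/
theorem ffcdPush_apply_eq_zero {D : Divisor K F} {Q : Place K' F'}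
    (h : ∀ P ∈ D.support, r P ≠ Q) : ffcdPush r D Q = 0 := by
  classical
  rw [ffcdPush_apply_def]
  by_contra hne
  have hmem : Q ∈ (Finsupp.mapDomain r D).support := Finsupp.mem_support_iff.mpr hne
  have := Finsupp.mapDomain_support hmem
  obtain ⟨P, hP, hPQ⟩ := Finset.mem_image.mp this
  exact h P hP hPQ

/-- push-forward after push-forward. -/
theorem ffcdPush_comp {K'' F'' : Type*} [Field K''] [Field F''] [Algebra K'' F'']
    (s : Place K' F' → Place K'' F'') (D : Divisor K F) :
    ffcdPush s (ffcdPush r D) = ffcdPush (s ∘ r) D := by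
  rw [ffcdPush_apply_def, ffcdPush_apply_def, ffcdPush_apply_def, Finsupp.mapDomain_comp]

theorem ffcdPush_congr {r' : Place K F → Place K' F'} {D : Divisor K F}
    (h : ∀ P ∈ D.support, r P = r' P) : ffcdPush r D = ffcdPush r' D := by
  rw [ffcdPush_apply_def, ffcdPush_apply_def]
  exact Finsupp.mapDomain_congr h

theorem ffcdPush_id (D : Divisor K F) : ffcdPush (id : Place K F → Place K F) D = D := by
  rw [ffcdPush_apply_def, Finsupp.mapDomain_id]

/-- the action of a semilinear automorphism on divisors is a push-forward. -/
theorem ffcd_smul_eq_push (σ : SemilinearAut K F) (D : Divisor K F) :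
    σ • D = ffcdPush (fun P => σ • P) D := rfl

/-- invariance of the push-forward under automorphisms commuting with `r`. -/
theorem ffcdPush_smul (σ : SemilinearAut K F) (hσ : ∀ P : Place K F, r (σ • P) = r P)
    (D : Divisor K F) : ffcdPush r (σ • D) = ffcdPush r D := by
  rw [ffcd_smul_eq_push, ffcdPush_comp]
  exact ffcdPush_congr _ fun P _ => hσ P

/-- a divisor supported on fixed places is fixed. -/
theorem ffcd_smul_eq_self (σ : SemilinearAut K F) {D : Divisor K F}
    (h : ∀ P ∈ D.support, σ • P = P) : σ • D = D := by
  rw [ffcd_smul_eq_push]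
  conv_rhs => rw [← ffcdPush_id D]
  exact ffcdPush_congr _ h

end Push

section Rho

variable {K F K' F' : Type*} [Field K] [Field F] [Algebra K F] [Field K'] [Field F']
  [Algebra K' F'] (r : Place K F → Place K' F')

/-- the push-forward on divisors of degree zero. -/
def ffcdPushZero (hdeg : ∀ D : Divisor K F, Divisor.degree (ffcdPush r D) = Divisor.degree D) :
    Divisor.degZero (K := K) (F := F) →+ Divisor.degZero (K := K') (F := F') :=
  ((ffcdPush r).comp (Divisor.degZero (K := K) (F := F)).subtype).codRestrict _ fun D => by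
    rw [Divisor.mem_degZero]
    show Divisor.degree (ffcdPush r (D : Divisor K F)) = 0
    rw [hdeg]
    exact D.2

@[simp]
theorem ffcdPushZero_coe (hdeg : ∀ D : Divisor K F, Divisor.degree (ffcdPush r D) = Divisor.degree D)
    (D : Divisor.degZero (K := K) (F := F)) :
    ((ffcdPushZero r hdeg D : Divisor.degZero (K := K') (F := F')) : Divisor K' F') =
      ffcdPush r (D : Divisor K F) := rfl

/-- the map induced by `r_*` on divisor classes of degree zero. -/
def ffcdRho (hdeg : ∀ D : Divisor K F, Divisor.degree (ffcdPush r D) = Divisor.degree D)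
    (hprin : ∀ D : Divisor K F, D ∈ Divisor.principal (K := K) (F := F) →
      ffcdPush r D ∈ Divisor.principal (K := K') (F := F')) : Pic0 K F →+ Pic0 K' F' :=
  QuotientAddGroup.map _ _ (ffcdPushZero r hdeg) (by
    rintro ⟨D, hD0⟩ hD
    simp only [AddSubgroup.mem_addSubgroupOf, AddSubgroup.mem_comap] at hD ⊢
    exact hprin D hD)

theorem ffcdRho_mk (hdeg : ∀ D : Divisor K F, Divisor.degree (ffcdPush r D) = Divisor.degree D)
    (hprin : ∀ D : Divisor K F, D ∈ Divisor.principal (K := K) (F := F) →
      ffcdPush r D ∈ Divisor.principal (K := K') (F := F'))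
    (D : Divisor.degZero (K := K) (F := F)) :
    ffcdRho r hdeg hprin (Pic0.mk D) = Pic0.mk (ffcdPushZero r hdeg D) := rfl

/-- `Pic0.mk D = Pic0.mk D'` iff `D - D'` is principal. -/
theorem ffcd_mk_eq_mk_iff {D D' : Divisor.degZero (K := K) (F := F)} :
    Pic0.mk D = Pic0.mk D' ↔
      (D : Divisor K F) - (D' : Divisor K F) ∈ Divisor.principal (K := K) (F := F) := by
  rw [Pic0.mk, Pic0.mk, QuotientAddGroup.eq, AddSubgroup.mem_addSubgroupOf]
  have h1 : ((-D + D' : Divisor.degZero (K := K) (F := F)) : Divisor K F) =
      -((D : Divisor K F) - (D' : Divisor K F)) := by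
    push_cast
    abel
  rw [h1, neg_mem_iff]

/-- invariance of `ffcdRho` under automorphisms commuting with `r`. -/
theorem ffcdRho_smul (hdeg : ∀ D : Divisor K F, Divisor.degree (ffcdPush r D) = Divisor.degree D)
    (hprin : ∀ D : Divisor K F, D ∈ Divisor.principal (K := K) (F := F) →
      ffcdPush r D ∈ Divisor.principal (K := K') (F := F'))
    (σ : SemilinearAut K F) (hσ : ∀ P : Place K F, r (σ • P) = r P) (x : Pic0 K F) :
    ffcdRho r hdeg hprin (σ • x) = ffcdRho r hdeg hprin x := by
  obtain ⟨D, rfl⟩ := Pic0.mk_surjective x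
  rw [SemilinearAut.pic0_smul_mk, ffcdRho_mk, ffcdRho_mk]
  congr 1
  apply Subtype.ext
  rw [ffcdPushZero_coe, ffcdPushZero_coe, SemilinearAut.coe_degZeroSMulHom]
  exact ffcdPush_smul r σ hσ _

end Rho

end Fermat.Agent.FF
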