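import Mathlib
import Fermat.Agent.FF.Core.Push
import Fermat.Agent.FF.Generic

/-!
# Program FF (S19), core (C5a): effective representatives of divisor classes

Owner: helper1.  Prefix `ffcd`.

`R : V27RR K F g`.  For a base divisor `D₀` of degree `g`:
* `ffcd_exists_eff`  : every class `γ ∈ Pic0` is `[D - D₀]` with `D ≥ 0` (Riemann-Roch);
* `ffcd_eq_of_principal` : if `l(D) ≤ 1`, `D ≥ 0`, then `D` is the only effective divisor in its
  class;
* `ffcdCls D D₀` : the class `[D - D₀]` of two divisors of the same degree.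
-/

set_option autoImplicit false
set_option linter.unusedSectionVars false
set_option linter.unusedVariables false
set_option linter.style.haveILetI false

noncomputable section

namespace Fermat.Agent.FF

open AlgebraicCurve Module Fermat.Agent.V.RR

variable {K F : Type*} [Field K] [Field F] [Algebra K F] {g : ℕ}

/-- the class `[D - D₀]` of two divisors of the same degree. -/
def ffcdCls (D D₀ : Divisor K F) (h : Divisor.degree D = Divisor.degree D₀) : Pic0 K F :=
  Pic0.mk ⟨D - D₀, by rw [Divisor.mem_degZero, map_sub, h, sub_self]⟩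

theorem ffcdCls_eq_mk (D D₀ : Divisor K F) (h : Divisor.degree D = Divisor.degree D₀)
    (h' : D - D₀ ∈ Divisor.degZero (K := K) (F := F)) :
    Pic0.mk ⟨D - D₀, h'⟩ = ffcdCls D D₀ h := rfl

theorem ffcdCls_eq_iff {D D' D₀ : Divisor K F} (h : Divisor.degree D = Divisor.degree D₀)
    (h' : Divisor.degree D' = Divisor.degree D₀) :
    ffcdCls D D₀ h = ffcdCls D' D₀ h' ↔ D - D' ∈ Divisor.principal (K := K) (F := F) := by
  rw [ffcdCls, ffcdCls, ffcd_mk_eq_mk_iff]
  have : (D - D₀) - (D' - D₀) = D - D' := by abel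
  show (D - D₀) - (D' - D₀) ∈ _ ↔ _
  rw [this]

/-- the class of `D + D' - D₀` is the sum of the classes. -/
theorem ffcdCls_add {D D' D'' D₀ : Divisor K F} (h : Divisor.degree D = Divisor.degree D₀)
    (h' : Divisor.degree D' = Divisor.degree D₀) (h'' : Divisor.degree D'' = Divisor.degree D₀)
    (hp : D'' - (D + D' - D₀) ∈ Divisor.principal (K := K) (F := F)) :
    ffcdCls D'' D₀ h'' = ffcdCls D D₀ h + ffcdCls D' D₀ h' := by
  rw [ffcdCls, ffcdCls, ffcdCls, ← Pic0.mk_add, ffcd_mk_eq_mk_iff]
  have : (D'' - D₀) - ((D - D₀) + (D' - D₀)) = D'' - (D + D' - D₀) := by abel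
  show (D'' - D₀) - ((D - D₀) + (D' - D₀)) ∈ _
  rw [this]
  exact hp

/-- **existence of effective representatives** (Riemann-Roch). -/
theorem ffcd_exists_eff (R : V27RR K F g) {D₀ : Divisor K F} (hD₀ : Divisor.degree D₀ = g)
    (γ : Pic0 K F) :
    ∃ (D : Divisor K F) (h : Divisor.degree D = Divisor.degree D₀), 0 ≤ D ∧ ffcdCls D D₀ h = γ := by
  classical
  haveI := R.hasDiv
  obtain ⟨Z, rfl⟩ := Pic0.mk_surjective γ
  have hZ : Divisor.degree (Z : Divisor K F) = 0 := Z.2
  obtain ⟨f, hf0, hf⟩ := R.exists_ne_zero_mem (D := (Z : Divisor K F) + D₀) (by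
    rw [map_add, hZ, hD₀, zero_add])
  obtain ⟨Df, hDf, hDfdeg⟩ := HasPrincipalDivisors.exists_divisor (K := K) f hf0
  have hdeg : Divisor.degree (Df + (Z : Divisor K F) + D₀) = Divisor.degree D₀ := by
    rw [map_add, map_add, hDfdeg, hZ, zero_add, zero_add]
  refine ⟨Df + (Z : Divisor K F) + D₀, hdeg, ?_, ?_⟩
  · intro v
    have := ((mem_riemannRochSpace_iff.mp hf) v).resolve_left hf0
    rw [Finsupp.add_apply] at this
    show (0 : ℤ) ≤ (Df + (Z : Divisor K F) + D₀) v
    rw [Finsupp.add_apply, Finsupp.add_apply, hDf]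
    linarith
  · rw [ffcdCls, ffcd_mk_eq_mk_iff]
    have : (Df + (Z : Divisor K F) + D₀ - D₀) - (Z : Divisor K F) = Df := by abel
    show (Df + (Z : Divisor K F) + D₀ - D₀) - (Z : Divisor K F) ∈ _
    rw [this]
    exact ⟨f, hf0, hDf⟩

/-- **uniqueness of effective representatives** when `l(D) ≤ 1`. -/
theorem ffcd_eq_of_principal (R : V27RR K F g) {D D'' : Divisor K F} (hD : 0 ≤ D)
    (hD'' : 0 ≤ D'') (hl : finrank K (riemannRochSpace D) ≤ 1)
    (hp : D'' - D ∈ Divisor.principal (K := K) (F := F)) : D'' = D := by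
  classical
  haveI := R.finL D
  obtain ⟨u, hu0, hu⟩ := hp
  have humem : u ∈ riemannRochSpace D := by
    rw [mem_riemannRochSpace_iff]
    intro v
    right
    rw [← hu v, Finsupp.sub_apply]
    have := hD'' v
    have h0 : (0 : Divisor K F) v = 0 := rfl
    rw [h0] at this
    linarith
  have h1mem : (1 : F) ∈ riemannRochSpace D := by
    rw [mem_riemannRochSpace_iff]
    intro v
    right
    rw [Place.ord_one]
    have := hD v
    have h0 : (0 : Divisor K F) v = 0 := rfl
    rw [h0] at this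
    linarith
  have hone : finrank K (riemannRochSpace D) = 1 := by
    refine le_antisymm hl ?_
    rw [Nat.succ_le_iff, Module.finrank_pos_iff_exists_ne_zero]
    exact ⟨⟨1, h1mem⟩, fun h => one_ne_zero (congrArg Subtype.val h)⟩
  obtain ⟨a, ha⟩ := (finrank_eq_one_iff_of_nonzero' (⟨1, h1mem⟩ : riemannRochSpace D)
    (fun h => one_ne_zero (congrArg Subtype.val h))).1 hone ⟨u, humem⟩
  have hua : u = algebraMap K F a := by
    have := congrArg Subtype.val ha
    simp only [Submodule.coe_smul, Algebra.smul_def, mul_one] at this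
    exact this.symm
  ext v
  have h1 := hu v
  rw [hua, Fermat.Agent.S24.PlaceOrd.ord_algebraMap, Finsupp.sub_apply] at h1
  linarith

/-- principal divisors have degree zero. -/
theorem ffcd_degree_principal (R : V27RR K F g) {D : Divisor K F}
    (hD : D ∈ Divisor.principal (K := K) (F := F)) : Divisor.degree D = 0 := by
  haveI := R.hasDiv
  obtain ⟨f, hf0, hf⟩ := hD
  obtain ⟨Df, hDf, hDfdeg⟩ := HasPrincipalDivisors.exists_divisor (K := K) f hf0
  have : D = Df := by
    ext v
    rw [hf v, hDf v]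
  rw [this, hDfdeg]

/-- the class of the push-forward. -/
theorem ffcdRho_cls {K' F' : Type*} [Field K'] [Field F'] [Algebra K' F']
    (r : Place K F → Place K' F')
    (hdeg : ∀ D : Divisor K F, Divisor.degree (ffcdPush r D) = Divisor.degree D)
    (hprin : ∀ D : Divisor K F, D ∈ Divisor.principal (K := K) (F := F) →
      ffcdPush r D ∈ Divisor.principal (K := K') (F := F'))
    {D D₀ : Divisor K F} {Dk Dk₀ : Divisor K' F'} (hD : ffcdPush r D = Dk)
    (hD₀ : ffcdPush r D₀ = Dk₀) (h : Divisor.degree D = Divisor.degree D₀)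
    (h' : Divisor.degree Dk = Divisor.degree Dk₀) :
    ffcdRho r hdeg hprin (ffcdCls D D₀ h) = ffcdCls Dk Dk₀ h' := by
  subst hD hD₀
  rw [ffcdCls, ffcdCls, ffcdRho_mk]
  congr 1
  apply Subtype.ext
  rw [ffcdPushZero_coe]
  exact map_sub _ _ _

/-- the class of the image under a semilinear automorphism. -/
theorem ffcd_smul_cls (σ : SemilinearAut K F) {D D₀ D₀' : Divisor K F} (hD₀ : σ • D₀ = D₀')
    (h : Divisor.degree D = Divisor.degree D₀)
    (h' : Divisor.degree (σ • D) = Divisor.degree D₀') :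
    σ • ffcdCls D D₀ h = ffcdCls (σ • D) D₀' h' := by
  subst hD₀
  rw [ffcdCls, ffcdCls, SemilinearAut.pic0_smul_mk]
  congr 1
  apply Subtype.ext
  rw [SemilinearAut.coe_degZeroSMulHom]
  exact smul_sub _ _ _

end Fermat.Agent.FF
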