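import Mathlib
import Fermat.Agent.FF.Core.Eff
import Fermat.Agent.FF.KMGeneral

/-!
# Program FF (S19), core (C5a): the choices on the special fibre

Owner: helper1.  Prefix `ffcd`.

On a curve `F / K` with `R : V27RR K F g`, all places of degree one, infinitely many places:
for a finite subgroup `C ≤ Pic0 K F`, a finite set `T` of places and a divisor `𝔡` with
`deg 𝔡 ≥ 5g` there are
* `D₀ ≥ 0` of degree `g` off `T` and effective `Dc c` (`c ∈ C`) of degree `g` off `T` with
  `[Dc c - D₀] = c` and `l(Dc c) = 1`  (helper27's `ffgn_main_eff`);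
* `E ≥ 0` of degree `2 deg 𝔡 - 3g` off `T` with `l(2𝔡 - Dc c - Dc c' - E) = 1` for all `c, c'`
  (helper28's `ffkg_general_position`).
-/

set_option autoImplicit false
set_option linter.unusedSectionVars false
set_option linter.unusedVariables false
set_option linter.style.haveILetI false

noncomputable section

namespace Fermat.Agent.FF

open AlgebraicCurve Module Fermat.Agent.V.RR

variable {K F : Type*} [Field K] [Field F] [Algebra K F] {g : ℕ}

theorem ffcd_special [Infinite K] [Infinite (Place K F)] (R : V27RR K F g)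
    (hdeg1 : ∀ v : Place K F, v.deg = 1) (C : AddSubgroup (Pic0 K F)) [Finite C]
    (T : Finset (Place K F)) (𝔡 : Divisor K F) (h𝔡 : 5 * (g : ℤ) ≤ Divisor.degree 𝔡) :
    ∃ (D₀ E : Divisor K F) (Dc : C → Divisor K F),
      0 ≤ D₀ ∧ Divisor.degree D₀ = g ∧ (∀ s ∈ T, D₀ s = 0) ∧
      0 ≤ E ∧ Divisor.degree E = 2 * Divisor.degree 𝔡 - 3 * g ∧ (∀ s ∈ T, E s = 0) ∧
      (∀ c, 0 ≤ Dc c ∧ (∀ s ∈ T, Dc c s = 0) ∧ finrank K (riemannRochSpace (Dc c)) = 1 ∧
        ∃ h : Divisor.degree (Dc c) = Divisor.degree D₀, ffcdCls (Dc c) D₀ h = (c : Pic0 K F)) ∧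
      ∀ c c', finrank K (riemannRochSpace ((2 : ℕ) • 𝔡 - Dc c - Dc c' - E)) = 1 := by
  classical
  -- representatives of the classes
  set Z : C → Divisor K F := fun c =>
    ((Quotient.out (c : Pic0 K F) : Divisor.degZero (K := K) (F := F)) : Divisor K F) with hZdef
  have hZ : ∀ c, Divisor.degree (Z c) = 0 := fun c =>
    (Quotient.out (c : Pic0 K F) : Divisor.degZero (K := K) (F := F)).2
  have hZmk : ∀ c : C, Pic0.mk (Quotient.out (c : Pic0 K F)) = (c : Pic0 K F) := fun c =>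
    QuotientAddGroup.out_eq' _
  obtain ⟨D₀, f, Dc, h0, hd, hS, h⟩ := ffgn_main_eff R hdeg1 Z hZ T
  -- the auxiliary divisor
  have hg0 : (0 : ℤ) ≤ g := Int.natCast_nonneg g
  set rr : ℕ := (2 * Divisor.degree 𝔡 - 3 * g).toNat with hrr
  have hrrZ : (rr : ℤ) = 2 * Divisor.degree 𝔡 - 3 * g := Int.toNat_of_nonneg (by linarith)
  set X : C × C → Divisor K F := fun p => (2 : ℕ) • 𝔡 - Dc p.1 - Dc p.2 with hX
  have hXdeg : ∀ p, Divisor.degree (X p) = 2 * Divisor.degree 𝔡 - 2 * g := by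
    intro p
    rw [hX]
    simp only [map_sub, map_nsmul, (h p.1).2.2.2.1, (h p.2).2.2.2.1]
    rw [nsmul_eq_mul]
    push_cast
    ring
  have hXl : ∀ p, (finrank K (riemannRochSpace (X p)) : ℤ) = 2 * Divisor.degree 𝔡 - 3 * g + 1 := by
    intro p
    rw [ffkm_finrank R (by rw [hXdeg]; linarith), hXdeg]
    ring
  obtain ⟨E, hE0, hEdeg, hET, -, hEl⟩ := ffkg_general_position R hdeg1 X T rr (fun p => by
    have := hXl p
    have h2 : (rr : ℤ) ≤ finrank K (riemannRochSpace (X p)) := by rw [this, hrrZ]; linarith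
    exact_mod_cast h2)
  refine ⟨D₀, E, Dc, h0, hd, hS, hE0, by rw [hEdeg, hrrZ], hET, fun c => ?_, fun c c' => ?_⟩
  · obtain ⟨hf, hE, hE0', hEd, hES, hl, -, -⟩ := h c
    refine ⟨hE0', hES, hl, by rw [hEd, hd], ?_⟩
    rw [← hZmk c, ffcdCls, ffcd_mk_eq_mk_iff]
    refine ⟨f c, hf, fun v => ?_⟩
    show (Dc c - D₀ - Z c) v = v.ord (f c)
    rw [Finsupp.sub_apply, Finsupp.sub_apply, hE v]
    ring
  · have h1 := hEl (c, c')
    have h2 := hXl (c, c')
    have h3 : (finrank K (riemannRochSpace (X (c, c') - E)) : ℤ) + rr =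
        finrank K (riemannRochSpace (X (c, c'))) := by exact_mod_cast h1
    have h4 : (finrank K (riemannRochSpace (X (c, c') - E)) : ℤ) = 1 := by
      rw [h2, hrrZ] at h3
      linarith
    exact_mod_cast h4

end Fermat.Agent.FF
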