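import Mathlib
import Fermat.Agent.FF.Core.Special

/-!
# Program FF (S19), core (C5a): the divisors `D₀`, `E`, `D_γ`, `D̃_c`

Owner: helper1.  Prefix `ffcd`.

`ffcd_div : FfcdInt A r Gam T → … → Nonempty (FfcdDiv A r Gam T Γ g 𝔡)`.
-/

set_option autoImplicit false
set_option linter.unusedSectionVars false
set_option linter.unusedVariables false
set_option linter.style.haveILetI false

noncomputable section

namespace Fermat.Agent.FF

open AlgebraicCurve IsLocalRing Module Fermat.Agent.V.RR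

variable {K : Type*} [Field K] (A : ValuationSubring K)
variable {F : Type*} [Field F] [Algebra K F]
variable {Fk : Type*} [Field Fk] [Algebra (ResidueField A) Fk]
variable {g : ℕ}

theorem ffcd_div [Infinite (ResidueField A)] [Infinite (Place (ResidueField A) Fk)]
    (RR : V27RR K F g) (RRk : V27RR (ResidueField A) Fk g)
    (hdeg1 : ∀ v : Place K F, v.deg = 1) (hdeg1k : ∀ v : Place (ResidueField A) Fk, v.deg = 1)
    {r : Place K F → Place (ResidueField A) Fk} {Gam : Subgroup (SemilinearAut K F)}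
    {T : Finset (Place (ResidueField A) Fk)} (hint : FfcdInt A r Gam T)
    (Γ : AddSubgroup (Pic0 K F)) [Finite Γ] (𝔡 : Divisor K F)
    (h𝔡 : 5 * (g : ℤ) ≤ Divisor.degree 𝔡) :
    Nonempty (FfcdDiv A r Gam T Γ g 𝔡) := by
  classical
  have hdeg : ∀ D : Divisor K F, Divisor.degree (ffcdPush r D) = Divisor.degree D :=
    ffcdPush_degree r hdeg1 hdeg1k
  set ρ : Pic0 K F →+ Pic0 (ResidueField A) Fk := ffcdRho r hdeg hint.prin with hρ
  set rho : Γ →+ Pic0 (ResidueField A) Fk := ρ.comp Γ.subtype with hrho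
  set C : AddSubgroup (Pic0 (ResidueField A) Fk) := rho.range with hC
  haveI : Finite C := Finite.of_surjective rho.rangeRestrict rho.rangeRestrict_surjective
  obtain ⟨Dk0, Ek, Dc, hDk0, hDk0deg, hDk0T, hEk, hEkdeg, hEkT, hDc, hGi⟩ :=
    ffcd_special RRk hdeg1k C T (ffcdPush r 𝔡) (by rw [hdeg]; exact h𝔡)
  -- a section of `r` with `Gam`-fixed values off `T`
  have hsec : ∀ Q : Place (ResidueField A) Fk, ∃ P : Place K F,
      Q ∉ T → (r P = Q ∧ ∀ σ ∈ Gam, σ • P = P) := by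
    intro Q
    by_cases hQ : Q ∈ T
    · obtain ⟨P⟩ := RR.place
      exact ⟨P, fun h => absurd hQ h⟩
    · obtain ⟨P, h1, h2⟩ := hint.lift Q hQ
      exact ⟨P, fun _ => ⟨h1, h2⟩⟩
  choose s hs using hsec
  have hlift : ∀ Dt : Divisor (ResidueField A) Fk, (∀ Q ∈ T, Dt Q = 0) →
      ffcdPush r (ffcdPush s Dt) = Dt ∧ ∀ σ ∈ Gam, σ • ffcdPush s Dt = ffcdPush s Dt := by
    intro Dt hDt
    have hsupp : ∀ Q ∈ Dt.support, Q ∉ T := fun Q hQ hQT =>
      (Finsupp.mem_support_iff.mp hQ) (hDt Q hQT)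
    refine ⟨?_, fun σ hσ => ?_⟩
    · rw [ffcdPush_comp]
      conv_rhs => rw [← ffcdPush_id Dt]
      exact ffcdPush_congr _ fun Q hQ => (hs Q (hsupp Q hQ)).1
    · apply ffcd_smul_eq_self
      intro P hP
      have := Finsupp.mapDomain_support hP
      obtain ⟨Q, hQ, rfl⟩ := Finset.mem_image.mp this
      exact (hs Q (hsupp Q hQ)).2 σ hσ
  set D0 : Divisor K F := ffcdPush s Dk0 with hD0
  set E : Divisor K F := ffcdPush s Ek with hE
  have hD0push : ffcdPush r D0 = Dk0 := (hlift Dk0 hDk0T).1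
  have hEpush : ffcdPush r E = Ek := (hlift Ek hEkT).1
  have hD0deg : Divisor.degree D0 = g := by rw [← hdeg, hD0push]; exact hDk0deg
  have hEdeg : Divisor.degree E = 2 * Divisor.degree 𝔡 - 3 * g := by
    rw [← hdeg, hEpush, hEkdeg, hdeg]
  -- the divisors `D_γ`
  choose D hDdeg hDnn hDcls using fun γ : Γ => ffcd_exists_eff RR hD0deg (γ : Pic0 K F)
  have hmemC : ∀ γ : Γ, rho γ ∈ C := fun γ => ⟨γ, rfl⟩
  have hDcdeg : ∀ c : C, Divisor.degree (Dc c) = Divisor.degree Dk0 := fun c =>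
    (hDc c).2.2.2.1
  have hDccls : ∀ c : C, ffcdCls (Dc c) Dk0 (hDcdeg c) = (c : Pic0 (ResidueField A) Fk) :=
    fun c => (hDc c).2.2.2.2
  -- uniqueness on the special fibre
  have hkuniq : ∀ (c : C) (D'' : Divisor (ResidueField A) Fk), 0 ≤ D'' →
      ∀ h'' : Divisor.degree D'' = Divisor.degree Dk0,
      ffcdCls D'' Dk0 h'' = (c : Pic0 (ResidueField A) Fk) → D'' = Dc c := by
    intro c D'' hD'' h'' hcls
    refine ffcd_eq_of_principal RRk (hDc c).1 hD'' (hDc c).2.2.1.le ?_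
    rw [← ffcdCls_eq_iff h'' (hDcdeg c), hcls, hDccls]
  -- the reduction of `D_γ`
  have hDpush : ∀ γ : Γ, ffcdPush r (D γ) = Dc ⟨rho γ, hmemC γ⟩ := by
    intro γ
    have hd'' : Divisor.degree (ffcdPush r (D γ)) = Divisor.degree Dk0 := by
      rw [hdeg, hDdeg, hD0deg, hDk0deg]
    refine hkuniq ⟨rho γ, hmemC γ⟩ _ (ffcdPush_nonneg r (hDnn γ)) hd'' ?_
    rw [← ffcdRho_cls r hdeg hint.prin rfl hD0push (hDdeg γ) hd'', hDcls]
    rfl
  have hDoff : ∀ γ : Γ, ∀ Q ∈ T, ffcdPush r (D γ) Q = 0 := fun γ Q hQ => by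
    rw [hDpush]
    exact (hDc _).2.1 Q hQ
  have hDl : ∀ γ : Γ, finrank K (riemannRochSpace (D γ)) ≤ 1 := fun γ => by
    refine (hint.semi (D γ) (hDnn γ) (hDoff γ)).trans ?_
    rw [hDpush]
    exact (hDc _).2.2.1.le
  -- uniqueness on the generic fibre
  have huniq : ∀ (γ : Γ) (D'' : Divisor K F), 0 ≤ D'' →
      ∀ h'' : Divisor.degree D'' = Divisor.degree D0,
      ffcdCls D'' D0 h'' = (γ : Pic0 K F) → D'' = D γ := by
    intro γ D'' hD'' h'' hcls
    refine ffcd_eq_of_principal RR (hDnn γ) hD'' (hDl γ) ?_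
    rw [← ffcdCls_eq_iff h'' (hDdeg γ), hcls, hDcls]
  set Dk : Pic0 (ResidueField A) Fk → Divisor (ResidueField A) Fk := fun c =>
    if h : c ∈ C then Dc ⟨c, h⟩ else 0 with hDk
  have hDkrho : ∀ γ : Γ, Dk (rho γ) = Dc ⟨rho γ, hmemC γ⟩ := fun γ => by
    rw [hDk]
    exact dif_pos (hmemC γ)
  have hrho_add : ∀ γ γ' : Γ, rho (γ + γ') = rho γ + rho γ' := fun γ γ' => map_add rho γ γ'
  -- `Dk_unique` in terms of `Dc`
  have hkadd : ∀ (γ γ' : Γ) (D'' : Divisor (ResidueField A) Fk), 0 ≤ D'' →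
      D'' - (Dc ⟨rho γ, hmemC γ⟩ + Dc ⟨rho γ', hmemC γ'⟩ - Dk0) ∈
        Divisor.principal (K := ResidueField A) (F := Fk) →
      D'' = Dc ⟨rho (γ + γ'), hmemC (γ + γ')⟩ := by
    intro γ γ' D'' hD'' hp
    have h'' : Divisor.degree D'' = Divisor.degree Dk0 := by
      have h0 := ffcd_degree_principal RRk hp
      rw [map_sub, map_sub, map_add, hDcdeg, hDcdeg] at h0
      linarith
    refine hkuniq ⟨rho (γ + γ'), hmemC (γ + γ')⟩ D'' hD'' h'' ?_
    rw [ffcdCls_add (hDcdeg ⟨rho γ, hmemC γ⟩) (hDcdeg ⟨rho γ', hmemC γ'⟩) h'' hp, hDccls, hDccls]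
    exact (hrho_add γ γ').symm
  refine ⟨{
    rho := rho
    rho_smul := ?_
    D0 := D0
    E := E
    D0_nonneg := ffcdPush_nonneg s hDk0
    D0_deg := hD0deg
    D0_off := fun Q hQ => by rw [hD0push]; exact hDk0T Q hQ
    D0_fix := (hlift Dk0 hDk0T).2
    E_nonneg := ffcdPush_nonneg s hEk
    E_deg := hEdeg
    E_off := fun Q hQ => by rw [hEpush]; exact hEkT Q hQ
    E_fix := (hlift Ek hEkT).2
    D := D
    Dk := Dk
    D_nonneg := hDnn
    D_deg := fun γ => by rw [hDdeg, hD0deg]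
    D_class := fun γ h => by rw [ffcdCls_eq_mk _ _ (hDdeg γ)]; exact hDcls γ
    D_push := fun γ => by rw [hDkrho]; exact hDpush γ
    D_smul := ?_
    Dk_off := fun γ Q hQ => by rw [hDkrho]; exact (hDc _).2.1 Q hQ
    D_unique := ?_
    Dk_unique := ?_
    Gi := ?_
    Gii := ?_ }⟩
  · -- rho_smul
    intro σ hσ γ γ' hγ
    show ρ (γ' : Pic0 K F) = ρ (γ : Pic0 K F)
    rw [hγ]
    exact ffcdRho_smul r hdeg hint.prin σ (hint.rinv σ hσ) _
  · -- D_smul
    intro σ hσ γ γ' hγ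
    symm
    have hnn : 0 ≤ σ • D γ := by
      rw [ffcd_smul_eq_push]
      exact ffcdPush_nonneg _ (hDnn γ)
    have h'' : Divisor.degree (σ • D γ) = Divisor.degree D0 := by
      rw [SemilinearAut.degree_smul, hDdeg]
    refine huniq γ' _ hnn h'' ?_
    rw [← ffcd_smul_cls σ ((hlift Dk0 hDk0T).2 σ hσ) (hDdeg γ) h'', hDcls, hγ]
  · -- D_unique
    intro γ γ' D'' hD'' hp
    have h'' : Divisor.degree D'' = Divisor.degree D0 := by
      have h0 := ffcd_degree_principal RR hp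
      rw [map_sub, map_sub, map_add, hDdeg, hDdeg] at h0
      linarith
    refine huniq (γ + γ') D'' hD'' h'' ?_
    rw [ffcdCls_add (hDdeg γ) (hDdeg γ') h'' hp, hDcls, hDcls]
    rfl
  · -- Dk_unique
    intro γ γ' D'' hD'' hp
    rw [hDkrho, hDkrho, hD0push] at hp
    rw [hDkrho]
    exact hkadd γ γ' D'' hD'' hp
  · -- Gi
    intro γ γ'
    rw [hDkrho, hDkrho, hEpush]
    exact hGi _ _
  · -- Gii
    intro γ γ'
    rw [hDkrho, hDkrho, hD0push]
    set X : Divisor (ResidueField A) Fk :=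
      Dc ⟨rho γ, hmemC γ⟩ + Dc ⟨rho γ', hmemC γ'⟩ - Dk0 with hX
    have hXdeg : Divisor.degree X = Divisor.degree Dk0 := by
      rw [hX, map_sub, map_add, hDcdeg, hDcdeg]
      ring
    have hXcls : ffcdCls X Dk0 hXdeg = ffcdCls (Dc ⟨rho (γ + γ'), hmemC (γ + γ')⟩) Dk0
        (hDcdeg _) := by
      rw [ffcdCls_add (hDcdeg ⟨rho γ, hmemC γ⟩) (hDcdeg ⟨rho γ', hmemC γ'⟩) hXdeg
        (by rw [sub_self]; exact zero_mem _), hDccls, hDccls, hDccls]
      exact (hrho_add γ γ').symm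
    obtain ⟨u, hu0, hu⟩ := (ffcdCls_eq_iff hXdeg (hDcdeg _)).mp hXcls
    rw [ffgn_finrank_of_sub_eq_ord hu0 hu]
    exact (hDc _).2.2.1

end Fermat.Agent.FF
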