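import Mathlib
import Fermat.Agent.FF.Core.Push

/-!
# Program FF (S19), core (C5a): the lattice of a divisor at one level

Owner: helper1.  Prefix `ffcd`.

* `ffcd_exists_chart` : every subspace of `k^ι` is complementary to a coordinate subspace;
* `ffcdCoord K b X`   : the coordinate space `{v | ∑ v i • b i ∈ L(X)}`;
* `ffcd_lattice`      : for a level `L : FfcdLevel A r Gam T 𝔡 b bk`, an effective divisor `D'`
  reducing off `T` with `deg (𝔡 - D') ≥ 2g - 1` and a chart `J` of the coordinate space of
  `L(r_*𝔡 - r_*D')`: the coordinate space of `L(𝔡 - D')` is the graph over `J` of a (unique,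
  normalised) matrix with entries in `A`, whose reduction is the graph matrix of the special fibre;
* `ffcd_lattice_smul` : equivariance under `Gam`.
-/

set_option autoImplicit false
set_option linter.unusedSectionVars false
set_option linter.unusedVariables false

noncomputable section

namespace Fermat.Agent.FF

open AlgebraicCurve IsLocalRing Module Fermat.Agent.V.RR

section ChartExists

variable {k : Type*} [Field k] {ι : Type*} [Fintype ι] [DecidableEq ι]

theorem ffcd_exists_chart_aux :
    ∀ (n : ℕ) (U : Submodule k (ι → k)) (S : Finset ι), finrank k U = n →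
      (∀ w ∈ U, ∀ i ∈ S, w i = 0) →
      ∃ J : Finset ι, Disjoint J S ∧ J.card = n ∧ ∀ w ∈ U, (∀ j ∈ J, w j = 0) → w = 0 := by
  intro n
  induction n with
  | zero =>
    intro U S hU _
    refine ⟨∅, Finset.disjoint_empty_left _, rfl, fun w hw _ => ?_⟩
    have : U = ⊥ := Submodule.finrank_eq_zero.mp hU
    rw [this] at hw
    exact (Submodule.mem_bot k).mp hw
  | succ n ih =>
    intro U S hU hS
    have hne : U ≠ ⊥ := by
      rintro rfl
      rw [finrank_bot] at hU
      exact absurd hU (Nat.succ_ne_zero n).symm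
    obtain ⟨w, hwU, hw0⟩ := Submodule.exists_mem_ne_zero_of_ne_bot hne
    obtain ⟨j, hj⟩ := Function.ne_iff.mp hw0
    have hj' : w j ≠ 0 := hj
    have hjS : j ∉ S := fun h => hj' (hS w hwU j h)
    set U₁ : Submodule k (ι → k) := U ⊓ LinearMap.ker (LinearMap.proj j) with hU₁
    have hU₁U : U₁ ≤ U := inf_le_left
    have hU₁j : ∀ x ∈ U₁, x j = 0 := fun x hx => by
      have := (Submodule.mem_inf.mp hx).2
      simpa using this
    have hlt : U₁ < U := by
      refine lt_of_le_of_ne hU₁U fun heq => ?_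
      exact hj' (hU₁j w (heq ▸ hwU))
    have h1 : finrank k U₁ < n + 1 := hU ▸ Submodule.finrank_lt_finrank_of_lt hlt
    have hsup : U ≤ U₁ ⊔ Submodule.span k {w} := by
      intro x hx
      have hx₁ : x - (x j / w j) • w ∈ U₁ := by
        refine Submodule.mem_inf.mpr ⟨U.sub_mem hx (U.smul_mem _ hwU), ?_⟩
        rw [LinearMap.mem_ker, LinearMap.proj_apply, Pi.sub_apply, Pi.smul_apply, smul_eq_mul,
          div_mul_cancel₀ _ hj', sub_self]
      have : x = (x - (x j / w j) • w) + (x j / w j) • w := by abel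
      rw [this]
      exact Submodule.add_mem _ (Submodule.mem_sup_left hx₁)
        (Submodule.mem_sup_right (Submodule.smul_mem _ _ (Submodule.mem_span_singleton_self w)))
    have h2 : n + 1 ≤ finrank k U₁ + 1 := by
      calc n + 1 = finrank k U := hU.symm
        _ ≤ finrank k (U₁ ⊔ Submodule.span k {w} : Submodule k (ι → k)) :=
          Submodule.finrank_mono hsup
        _ ≤ finrank k U₁ + finrank k (Submodule.span k {w}) :=
          Submodule.finrank_add_le_finrank_add_finrank _ _
        _ = finrank k U₁ + 1 := by rw [finrank_span_singleton hw0]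
    have hfr : finrank k U₁ = n := by omega
    obtain ⟨J₁, hdis, hcard, hsep⟩ := ih U₁ (insert j S) hfr (by
      intro x hx i hi
      rcases Finset.mem_insert.mp hi with rfl | hi
      · exact hU₁j x hx
      · exact hS x (hU₁U hx) i hi)
    have hjJ₁ : j ∉ J₁ := fun h =>
      Finset.disjoint_left.mp hdis h (Finset.mem_insert_self j S)
    refine ⟨insert j J₁, ?_, ?_, ?_⟩
    · rw [Finset.disjoint_insert_left]
      exact ⟨hjS, hdis.mono_right (Finset.subset_insert j S)⟩
    · rw [Finset.card_insert_of_notMem hjJ₁, hcard]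
    · intro x hx h0
      have hxj : x j = 0 := h0 j (Finset.mem_insert_self j J₁)
      have hx₁ : x ∈ U₁ := Submodule.mem_inf.mpr ⟨hx, by
        rw [LinearMap.mem_ker, LinearMap.proj_apply, hxj]⟩
      exact hsep x hx₁ fun i hi => h0 i (Finset.mem_insert_of_mem hi)

/-- every subspace of `k^ι` has a chart: a set `J` of `dim U` coordinates on which the vectors of
`U` are determined. -/
theorem ffcd_exists_chart (U : Submodule k (ι → k)) :
    ∃ J : Finset ι, J.card = finrank k U ∧ ∀ w ∈ U, (∀ j ∈ J, w j = 0) → w = 0 := by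
  obtain ⟨J, -, h1, h2⟩ := ffcd_exists_chart_aux (finrank k U) U ∅ rfl (fun _ _ i hi => by
    simp at hi)
  exact ⟨J, h1, h2⟩

end ChartExists

section Coord

variable {K : Type*} [Field K] {F : Type*} [Field F] [Algebra K F]
  {ι : Type*} [Fintype ι]

/-- the coordinate space of `L(X)` with respect to the family `b`. -/
def ffcdCoord (K : Type*) {F : Type*} [Field K] [Field F] [Algebra K F] {ι : Type*} [Fintype ι]
    (b : ι → F) (X : Divisor K F) : Submodule K (ι → K) :=
  (riemannRochSpace X).comap (ffcdReal K b)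

theorem ffcd_mem_coord {b : ι → F} {X : Divisor K F} {v : ι → K} :
    v ∈ ffcdCoord K b X ↔ (∑ i, v i • b i) ∈ riemannRochSpace X := by
  rw [ffcdCoord, Submodule.mem_comap, Fintype.linearCombination_apply]

theorem ffcd_coord_map {b : ι → F} {𝔡 X : Divisor K F}
    (hspan : Submodule.span K (Set.range b) = riemannRochSpace 𝔡) (hX : X ≤ 𝔡) :
    (ffcdCoord K b X).map (ffcdReal K b) = riemannRochSpace X := by
  apply Submodule.map_comap_eq_self
  rw [Fintype.range_linearCombination, hspan]
  exact v27rr_rrSpace_mono hX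

theorem ffcd_coord_finrank {b : ι → F} {𝔡 X : Divisor K F} (hli : LinearIndependent K b)
    (hspan : Submodule.span K (Set.range b) = riemannRochSpace 𝔡) (hX : X ≤ 𝔡) :
    finrank K (ffcdCoord K b X) = finrank K (riemannRochSpace X) := by
  have hinj : Function.Injective (ffcdReal K b) :=
    linearIndependent_iff_injective_fintypeLinearCombination.mp hli
  rw [← ffcd_coord_map hspan hX]
  exact (LinearEquiv.finrank_eq (Submodule.equivMapOfInjective _ hinj _))

/-- semilinear automorphisms move Riemann-Roch spaces. -/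
theorem ffcd_smul_mem_rr (σ : SemilinearAut K F) {X : Divisor K F} {f : F}
    (hf : f ∈ riemannRochSpace X) : σ • f ∈ riemannRochSpace (σ • X) := by
  rw [mem_riemannRochSpace_iff] at hf ⊢
  intro v
  rcases hf (σ⁻¹ • v) with h0 | h
  · left
    rw [h0, smul_zero]
  · right
    have h1 := SemilinearAut.ord_smul σ (σ⁻¹ • v) f
    rw [smul_inv_smul] at h1
    rw [h1, SemilinearAut.divisor_smul_apply]
    exact h

/-- the action of a semilinear automorphism on a linear combination of fixed vectors. -/
theorem ffcd_smul_sum (σ : SemilinearAut K F) {b : ι → F} (hb : ∀ i, σ • b i = b i)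
    (v : ι → K) :
    σ • (∑ i, v i • b i) = ∑ i, SemilinearAut.baseAut σ (v i) • b i := by
  rw [Finset.smul_sum]
  refine Finset.sum_congr rfl fun i _ => ?_
  rw [Algebra.smul_def, smul_mul', SemilinearAut.smul_algebraMap, hb i, ← Algebra.smul_def]

/-- coordinates of `L(σ X)`. -/
theorem ffcd_coord_smul (σ : SemilinearAut K F) {b : ι → F} (hb : ∀ i, σ • b i = b i)
    {X : Divisor K F} {v : ι → K} (hv : v ∈ ffcdCoord K b X) :
    (fun i => SemilinearAut.baseAut σ (v i)) ∈ ffcdCoord K b (σ • X) := by
  rw [ffcd_mem_coord] at hv ⊢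
  rw [← ffcd_smul_sum σ hb v]
  exact ffcd_smul_mem_rr σ hv

end Coord

section Level

variable {K : Type*} [Field K] (A : ValuationSubring K)
variable {F : Type*} [Field F] [Algebra K F]
variable {Fk : Type*} [Field Fk] [Algebra (ResidueField A) Fk]
variable {r : Place K F → Place (ResidueField A) Fk} {Gam : Subgroup (SemilinearAut K F)}
  {T : Finset (Place (ResidueField A) Fk)} {𝔡 : Divisor K F}
  {ι : Type*} [Fintype ι] [DecidableEq ι] {b : ι → F} {bk : ι → Fk} {g : ℕ}

/-- **the lattice of a divisor at one level**: graph coordinates over `A` of `L(𝔡 - D')` in any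
chart `J` of the special fibre `L(r_*𝔡 - r_*D')`, reducing to the graph coordinates of the
latter. -/
theorem ffcd_lattice (L : FfcdLevel A r Gam T 𝔡 b bk) (RR : V27RR K F g)
    (RRk : V27RR (ResidueField A) Fk g)
    (hdeg : ∀ D : Divisor K F, Divisor.degree (ffcdPush r D) = Divisor.degree D)
    {D' : Divisor K F} (hD' : 0 ≤ D') (hoff : ∀ Q ∈ T, ffcdPush r D' Q = 0)
    (hdegD : 2 * (g : ℤ) - 1 ≤ Divisor.degree (𝔡 - D'))
    (J : Finset ι)
    (hJcard : J.card = finrank (ResidueField A)
      (ffcdCoord (ResidueField A) bk (ffcdPush r 𝔡 - ffcdPush r D')))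
    (hJsep : ∀ w ∈ ffcdCoord (ResidueField A) bk (ffcdPush r 𝔡 - ffcdPush r D'),
      (∀ j ∈ J, w j = 0) → w = 0) :
    ∃ Z : ι → ι → A, FfcdNorm J Z ∧
      ffcdCoord K b (𝔡 - D') = ffcdGraph J (fun j i => ((Z j i : A) : K)) ∧
      ffcdCoord (ResidueField A) bk (ffcdPush r 𝔡 - ffcdPush r D') =
        ffcdGraph J (fun j i => residue A (Z j i)) := by
  have hX : 𝔡 - D' ≤ 𝔡 := sub_le_self _ hD'
  have hXk : ffcdPush r 𝔡 - ffcdPush r D' ≤ ffcdPush r 𝔡 := sub_le_self _ (ffcdPush_nonneg r hD')
  have hdegk : Divisor.degree (ffcdPush r 𝔡 - ffcdPush r D') = Divisor.degree (𝔡 - D') := by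
    rw [← map_sub, hdeg]
  have h1 : (finrank K (ffcdCoord K b (𝔡 - D')) : ℤ) = Divisor.degree (𝔡 - D') + 1 - g := by
    rw [ffcd_coord_finrank L.li L.span hX]
    exact (RR.finrank_of_lt (by linarith)).1
  have h2 : (finrank (ResidueField A)
      (ffcdCoord (ResidueField A) bk (ffcdPush r 𝔡 - ffcdPush r D')) : ℤ) =
      Divisor.degree (𝔡 - D') + 1 - g := by
    rw [ffcd_coord_finrank L.lik L.spank hXk, ← hdegk]
    exact (RRk.finrank_of_lt (by rw [hdegk]; linarith)).1
  have hdim : finrank K (ffcdCoord K b (𝔡 - D')) = J.card := by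
    rw [hJcard]
    have : (finrank K (ffcdCoord K b (𝔡 - D')) : ℤ) = (finrank (ResidueField A)
        (ffcdCoord (ResidueField A) bk (ffcdPush r 𝔡 - ffcdPush r D')) : ℤ) := by
      rw [h1, h2]
    exact_mod_cast this
  refine ffcd_chart A (residue A) (fun a => residue_eq_zero_iff a) _ _ J hdim ?_ hJsep
  intro v hv hvA
  rw [ffcd_mem_coord] at hv ⊢
  exact L.red D' hD' hoff (fun i => ⟨v i, hvA i⟩) hv

/-- **equivariance of the graph coordinates**: the matrix of `σ D'` is `σ` applied to the matrix
of `D'`. -/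
theorem ffcd_lattice_smul (L : FfcdLevel A r Gam T 𝔡 b bk) {σ : SemilinearAut K F}
    (hσ : σ ∈ Gam) {D' : Divisor K F} {J : Finset ι} {Z Z' : ι → ι → A}
    (hZ : FfcdNorm J Z) (hZ' : FfcdNorm J Z')
    (h : ffcdCoord K b (𝔡 - D') = ffcdGraph J (fun j i => ((Z j i : A) : K)))
    (h' : ffcdCoord K b (𝔡 - σ • D') = ffcdGraph J (fun j i => ((Z' j i : A) : K))) :
    ∀ j i, ((Z' j i : A) : K) = SemilinearAut.baseAut σ ((Z j i : A) : K) := by
  intro j i
  by_cases hji : j ∉ J ∨ i ∈ J
  · rw [hZ j i hji, hZ' j i hji]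
    simp
  · push Not at hji
    obtain ⟨hj, hi⟩ := hji
    have hvec : ffcdVec J (fun j i => ((Z j i : A) : K)) j ∈ ffcdCoord K b (𝔡 - D') := by
      rw [h]
      exact ffcdVec_mem J _ hj
    have hmem := ffcd_coord_smul σ (L.fixed σ hσ) hvec
    rw [smul_sub, L.stable σ hσ, h'] at hmem
    have hi' : SemilinearAut.baseAut σ (ffcdVec J (fun j i => ((Z j i : A) : K)) j i) =
        ∑ j' ∈ J, ((Z' j' i : A) : K) *
          SemilinearAut.baseAut σ (ffcdVec J (fun j i => ((Z j i : A) : K)) j j') := hmem i hi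
    rw [ffcdVec_apply_notMem _ j hi, Finset.sum_eq_single j] at hi'
    · rw [ffcdVec_apply_mem _ j hj, if_pos rfl, map_one, mul_one] at hi'
      exact hi'.symm
    · intro j' hj' hne
      rw [ffcdVec_apply_mem _ j hj', if_neg hne, map_zero, mul_zero]
    · intro hnot
      exact absurd hj hnot

end Level

end Fermat.Agent.FF
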