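import Mathlib
import Fermat.Agent.FF.Core.DivA
import Fermat.Agent.FF.Core.Lattice

/-!
# Program FF (S19), core (C5a): `ffcd_main`

Owner: helper1.  Prefix `ffcd`.

`ffcd_main`: from the integral input (`FfcdInt`, three levels `FfcdLevel` for `𝔡`, `2𝔡`, `3𝔡`) and
the Riemann-Roch packages of both fibres (same genus) to `Nonempty (FfcdData …)`: the divisors
`D₀, E, D_γ, D̃_c`, the charts `J_c`, the graph coordinates `Z γ` of `L(𝔡 - D_γ)` (integral,
equivariant, injective on the fibres of `ρ`, constant modulo the maximal ideal) and the three fixed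
lattices with `Gam`-fixed graph matrices.
-/

set_option autoImplicit false
set_option linter.unusedSectionVars false
set_option linter.unusedVariables false
set_option linter.style.haveILetI false

noncomputable section

namespace Fermat.Agent.FF

open AlgebraicCurve IsLocalRing Module Fermat.Agent.V.RR

variable {K : Type*} [Field K] (A : ValuationSubring K)
variable {F : Type*} [Field F] [Algebra K F]
variable {Fk : Type*} [Field Fk] [Algebra (ResidueField A) Fk]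
variable {g : ℕ}

/-- **a fixed lattice**: graph coordinates with `Gam`-fixed entries for a `Gam`-stable divisor. -/
theorem ffcd_fixed_lattice {r : Place K F → Place (ResidueField A) Fk}
    {Gam : Subgroup (SemilinearAut K F)} {T : Finset (Place (ResidueField A) Fk)}
    {𝔡 : Divisor K F} {ι : Type*} [Fintype ι] [DecidableEq ι] {b : ι → F} {bk : ι → Fk}
    (L : FfcdLevel A r Gam T 𝔡 b bk) (RR : V27RR K F g) (RRk : V27RR (ResidueField A) Fk g)
    (hdeg : ∀ D : Divisor K F, Divisor.degree (ffcdPush r D) = Divisor.degree D)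
    {D' : Divisor K F} (hD' : 0 ≤ D') (hoff : ∀ Q ∈ T, ffcdPush r D' Q = 0)
    (hdegD : 2 * (g : ℤ) - 1 ≤ Divisor.degree (𝔡 - D')) (hfix : ∀ σ ∈ Gam, σ • D' = D') :
    ∃ (J : Finset ι) (Z : ι → ι → A), FfcdNorm J Z ∧
      (∀ σ ∈ Gam, ∀ j i, SemilinearAut.baseAut σ ((Z j i : A) : K) = ((Z j i : A) : K)) ∧
      (ffcdGraph J (fun j i => ((Z j i : A) : K))).map (ffcdReal K b) =
        riemannRochSpace (𝔡 - D') ∧
      (ffcdGraph J (fun j i => residue A (Z j i))).map (ffcdReal (ResidueField A) bk) =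
        riemannRochSpace (ffcdPush r 𝔡 - ffcdPush r D') := by
  classical
  obtain ⟨J, hJcard, hJsep⟩ := ffcd_exists_chart
    (ffcdCoord (ResidueField A) bk (ffcdPush r 𝔡 - ffcdPush r D'))
  obtain ⟨Z, hZ, hU, hUk⟩ := ffcd_lattice A L RR RRk hdeg hD' hoff hdegD J hJcard hJsep
  refine ⟨J, Z, hZ, fun σ hσ j i => ?_, ?_, ?_⟩
  · exact (ffcd_lattice_smul A L hσ hZ hZ hU (by rw [hfix σ hσ]; exact hU) j i).symm
  · rw [← hU]
    exact ffcd_coord_map L.span (sub_le_self _ hD')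
  · rw [← hUk]
    exact ffcd_coord_map L.spank (sub_le_self _ (ffcdPush_nonneg r hD'))

/-- **C5a, main theorem.** -/
theorem ffcd_main [Infinite K] [Infinite (ResidueField A)]
    [Infinite (Place (ResidueField A) Fk)]
    (RR : V27RR K F g) (RRk : V27RR (ResidueField A) Fk g)
    (hdeg1 : ∀ v : Place K F, v.deg = 1) (hdeg1k : ∀ v : Place (ResidueField A) Fk, v.deg = 1)
    {r : Place K F → Place (ResidueField A) Fk} {Gam : Subgroup (SemilinearAut K F)}
    {T : Finset (Place (ResidueField A) Fk)} (hint : FfcdInt A r Gam T)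
    (Γ : AddSubgroup (Pic0 K F)) [Finite Γ] (𝔡 : Divisor K F)
    (h𝔡 : 5 * (g : ℤ) ≤ Divisor.degree 𝔡)
    {ι₁ ι₂ ι₃ : Type*} [Fintype ι₁] [Fintype ι₂] [Fintype ι₃] [DecidableEq ι₁] [DecidableEq ι₂]
    [DecidableEq ι₃]
    {b₁ : ι₁ → F} {bk₁ : ι₁ → Fk} {b₂ : ι₂ → F} {bk₂ : ι₂ → Fk} {b₃ : ι₃ → F} {bk₃ : ι₃ → Fk}
    (L1 : FfcdLevel A r Gam T 𝔡 b₁ bk₁) (L2 : FfcdLevel A r Gam T ((2 : ℕ) • 𝔡) b₂ bk₂)
    (L3 : FfcdLevel A r Gam T ((3 : ℕ) • 𝔡) b₃ bk₃) :
    Nonempty (FfcdData A r Gam T Γ g 𝔡 b₁ bk₁ b₂ bk₂ b₃ bk₃) := by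
  classical
  have hdeg : ∀ D : Divisor K F, Divisor.degree (ffcdPush r D) = Divisor.degree D :=
    ffcdPush_degree r hdeg1 hdeg1k
  obtain ⟨dv⟩ := ffcd_div A RR RRk hdeg1 hdeg1k hint Γ 𝔡 h𝔡
  have hg0 : (0 : ℤ) ≤ g := Int.natCast_nonneg g
  -- degrees
  have hdegD : ∀ γ : Γ, Divisor.degree (𝔡 - dv.D γ) = Divisor.degree 𝔡 - g := fun γ => by
    rw [map_sub, dv.D_deg]
  have hDknn : ∀ γ : Γ, 0 ≤ dv.Dk (dv.rho γ) := fun γ => by
    rw [← dv.D_push]
    exact ffcdPush_nonneg r (dv.D_nonneg γ)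
  have hDoff : ∀ γ : Γ, ∀ Q ∈ T, ffcdPush r (dv.D γ) Q = 0 := fun γ Q hQ => by
    rw [dv.D_push]
    exact dv.Dk_off γ Q hQ
  -- charts of the special fibre, one for every class
  choose J hJcard hJsep using fun c : Pic0 (ResidueField A) Fk =>
    ffcd_exists_chart (ffcdCoord (ResidueField A) bk₁ (ffcdPush r 𝔡 - dv.Dk c))
  -- the graph coordinates of `L(𝔡 - D_γ)`
  choose Z hZnorm hZU hZUk using fun γ : Γ =>
    ffcd_lattice A L1 RR RRk hdeg (dv.D_nonneg γ) (hDoff γ) (by rw [hdegD]; linarith)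
      (J (dv.rho γ)) (by rw [dv.D_push]; exact hJcard _) (by rw [dv.D_push]; exact hJsep _)
  -- the three fixed lattices
  have hED0nn : 0 ≤ dv.E + dv.D0 := add_nonneg dv.E_nonneg dv.D0_nonneg
  have hED0off : ∀ Q ∈ T, ffcdPush r (dv.E + dv.D0) Q = 0 := fun Q hQ => by
    rw [map_add, Finsupp.add_apply, dv.E_off Q hQ, dv.D0_off Q hQ, add_zero]
  have hED0fix : ∀ σ ∈ Gam, σ • (dv.E + dv.D0) = dv.E + dv.D0 := fun σ hσ => by
    rw [smul_add, dv.E_fix σ hσ, dv.D0_fix σ hσ]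
  have hdeg2 : Divisor.degree ((2 : ℕ) • 𝔡) = 2 * Divisor.degree 𝔡 := by
    rw [map_nsmul, nsmul_eq_mul]; push_cast; ring
  have hdeg3 : Divisor.degree ((3 : ℕ) • 𝔡) = 3 * Divisor.degree 𝔡 := by
    rw [map_nsmul, nsmul_eq_mul]; push_cast; ring
  obtain ⟨JE, ZE, hZEn, hZEf, hZEg, hZEs⟩ := ffcd_fixed_lattice A L2 RR RRk hdeg dv.E_nonneg
    dv.E_off (by rw [map_sub, hdeg2, dv.E_deg]; linarith) dv.E_fix
  obtain ⟨JF, ZF, hZFn, hZFf, hZFg, hZFs⟩ := ffcd_fixed_lattice A L2 RR RRk hdeg hED0nn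
    hED0off (by rw [map_sub, map_add, hdeg2, dv.E_deg, dv.D0_deg]; linarith) hED0fix
  obtain ⟨JG, ZG, hZGn, hZGf, hZGg, hZGs⟩ := ffcd_fixed_lattice A L3 RR RRk hdeg hED0nn
    hED0off (by rw [map_sub, map_add, hdeg3, dv.E_deg, dv.D0_deg]; linarith) hED0fix
  refine ⟨{
    toFfcdDiv := dv
    J := J
    Z := Z
    J_card := ?_
    Z_norm := hZnorm
    Z_gen := ?_
    Z_spec := ?_
    Z_smul := ?_
    Z_inj := ?_
    Z_res := ?_
    JE := JE
    ZE := ZE
    ZE_norm := hZEn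
    ZE_fix := hZEf
    ZE_gen := hZEg
    ZE_spec := ?_
    JF := JF
    ZF := ZF
    ZF_norm := hZFn
    ZF_fix := hZFf
    ZF_gen := ?_
    ZF_spec := ?_
    JG := JG
    ZG := ZG
    ZG_norm := hZGn
    ZG_fix := hZGf
    ZG_gen := ?_
    ZG_spec := ?_ }⟩
  · -- J_card
    intro γ
    rw [hJcard, ffcd_coord_finrank L1.lik L1.spank (sub_le_self _ (hDknn γ))]
    have hd : Divisor.degree (ffcdPush r 𝔡 - dv.Dk (dv.rho γ)) = Divisor.degree 𝔡 - g := by
      rw [← dv.D_push, ← map_sub, hdeg, hdegD]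
    rw [(RRk.finrank_of_lt (by rw [hd]; linarith)).1, hd]
    ring
  · -- Z_gen
    intro γ
    rw [← hZU]
    exact ffcd_coord_map L1.span (sub_le_self _ (dv.D_nonneg γ))
  · -- Z_spec
    intro γ
    rw [← hZUk, dv.D_push]
    exact ffcd_coord_map L1.spank (sub_le_self _ (hDknn γ))
  · -- Z_smul
    intro σ hσ γ γ' hγ
    have hrho : dv.rho γ' = dv.rho γ := dv.rho_smul σ hσ γ γ' hγ
    have hD : dv.D γ' = σ • dv.D γ := dv.D_smul σ hσ γ γ' hγ
    have h1 := hZnorm γ'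
    have h2 := hZU γ'
    rw [hrho] at h1
    rw [hrho, hD] at h2
    exact ffcd_lattice_smul A L1 hσ (hZnorm γ) h1 (hZU γ) h2
  · -- Z_inj
    intro γ γ' hrho hZ
    have h1 : ffcdCoord K b₁ (𝔡 - dv.D γ) = ffcdCoord K b₁ (𝔡 - dv.D γ') := by
      rw [hZU γ, hZU γ', hrho, hZ]
    have h2 : riemannRochSpace (𝔡 - dv.D γ) = riemannRochSpace (𝔡 - dv.D γ') := by
      rw [← ffcd_coord_map L1.span (sub_le_self _ (dv.D_nonneg γ)), h1,
        ffcd_coord_map L1.span (sub_le_self _ (dv.D_nonneg γ'))]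
    have h3 := ffkm_injective RR hdeg1 (by rw [hdegD]; linarith) (by rw [hdegD]; linarith) h2
    have h4 : dv.D γ = dv.D γ' := by
      have := congrArg (fun X => 𝔡 - X) h3
      simpa using this
    have hz : dv.D γ - dv.D0 ∈ Divisor.degZero (K := K) (F := F) := by
      rw [Divisor.mem_degZero, map_sub, dv.D_deg, dv.D0_deg, sub_self]
    have hz' : dv.D γ' - dv.D0 ∈ Divisor.degZero (K := K) (F := F) := by
      rw [Divisor.mem_degZero, map_sub, dv.D_deg, dv.D0_deg, sub_self]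
    apply Subtype.ext
    rw [← dv.D_class γ hz, ← dv.D_class γ' hz']
    congr 2
    rw [h4]
  · -- Z_res
    intro γ γ' hrho j i
    have hn : ∀ γ : Γ, FfcdNorm (J (dv.rho γ)) (fun j i => residue A (Z γ j i)) :=
      fun γ j i hji => by
        show residue A (Z γ j i) = 0
        rw [hZnorm γ j i hji, map_zero]
    have h1 := hn γ'
    have h2 := hZUk γ'
    rw [← hrho] at h1
    rw [← hrho, dv.D_push, ← hrho, ← dv.D_push γ, hZUk γ] at h2
    exact congrFun (congrFun (ffcd_graph_injective (hn γ) h1 h2) j) i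
  · -- ZE_spec
    rw [hZEs, map_nsmul]
  · -- ZF_gen
    rw [hZFg, sub_sub]
  · -- ZF_spec
    rw [hZFs, map_nsmul, map_add, sub_sub]
  · -- ZG_gen
    rw [hZGg, sub_sub]
  · -- ZG_spec
    rw [hZGs, map_nsmul, map_add, sub_sub]

end Fermat.Agent.FF
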