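/-
Program FF — plug of helper26's abstract integral model (`FF/IntRR.lean`, `FfirModel`) into the
inputs of helper1's C5a (`FF/Core/DivSpec.lean`: `FfcdLevel`, `FfcdInt`) (helper25, prefix `ffdp`).

`Gam := ρ.range`.  For every level `m ≥ m0` with `m · deg Dinf > 2g - 2` the integral basis of
`ffir_basis` gives `FfcdLevel A r ρ.range T (m • Dinf) b (red ∘ b)`, for EVERY bad set `T`
(the hypothesis "reduces off `T`" of `FfcdLevel.red` / `FfcdInt.semi` / `FfcdInt.lift` is not
needed by the abstract model), and `FfcdInt A r ρ.range T` holds.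
-/
import Fermat.Agent.FF.IntRR
import Fermat.Agent.FF.Core.DivSpec

set_option autoImplicit false

noncomputable section

namespace Fermat.Agent.FF

open AlgebraicCurve IsLocalRing Module Fermat.Agent.V.RR

variable {K : Type*} [Field K] {A : ValuationSubring K}
variable {F : Type*} [Field F] [Algebra K F]
variable {Fk : Type*} [Field Fk] [Algebra (ResidueField A) Fk]
variable {O : Subring F} {red : O →+* Fk} {G : Type*} [Group G]
variable {r : Place K F → Place (ResidueField A) Fk} {ρ : G →* SemilinearAut K F}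
  {Dinf : Divisor K F} {m0 : ℕ} {g : ℕ}

theorem ffdp_push_apply (r : Place K F → Place (ResidueField A) Fk) (D : Divisor K F) :
    ffcdPush r D = Finsupp.mapDomain r D := rfl

/-- the global facts `(E3)`, `(E3')`, `(G1)` in the C5a literal. -/
theorem ffdp_int (M : FfirModel A O red r ρ Dinf m0) (RR : V27RR K F g)
    (RRk : V27RR (ResidueField A) Fk g) (hdeg : ∀ P : Place K F, P.deg = 1)
    (hdegk : ∀ Q : Place (ResidueField A) Fk, Q.deg = 1) (hd : 0 < Divisor.degree Dinf)
    (T : Finset (Place (ResidueField A) Fk)) : FfcdInt A r ρ.range T where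
  prin := fun D hD => by
    rw [ffdp_push_apply]
    exact ffir_mapDomain_principal M hD
  semi := fun D _ _ => by
    rw [ffdp_push_apply]
    exact ffir_semicont M RR RRk hdeg hdegk hd D
  lift := fun Q _ => by
    obtain ⟨P, hP, hfix⟩ := M.lift_place Q
    refine ⟨P, hP, ?_⟩
    rintro σ ⟨τ, rfl⟩
    exact hfix τ
  rinv := by
    rintro σ ⟨τ, rfl⟩ P
    exact M.r_smul τ P
  base_mem := by
    rintro σ ⟨τ, rfl⟩ a ha
    exact M.base_mem τ a ha

/-- one level of the integral structure in the C5a literal, from any integral family `b : ι → O`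
which is a fixed `K`-basis of `L(𝔡)` reducing to a `k`-basis of `L(r_* 𝔡)`. -/
theorem ffdp_level_of_basis [HasPrincipalDivisors K F] (M : FfirModel A O red r ρ Dinf m0)
    (T : Finset (Place (ResidueField A) Fk)) (𝔡 : Divisor K F) (h𝔡 : ∀ σ : G, ρ σ • 𝔡 = 𝔡)
    {ι : Type*} [Fintype ι] (b : ι → O)
    (hfix : ∀ i (σ : G), ρ σ • ((b i : O) : F) = b i)
    (hlik : LinearIndependent (ResidueField A) (fun i => red (b i)))
    (hspank : Submodule.span (ResidueField A) (Set.range fun i => red (b i)) =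
      riemannRochSpace (Finsupp.mapDomain r 𝔡))
    (hli : LinearIndependent K (fun i => ((b i : O) : F)))
    (hspan : Submodule.span K (Set.range fun i => ((b i : O) : F)) = riemannRochSpace 𝔡) :
    FfcdLevel A r ρ.range T 𝔡 (fun i => ((b i : O) : F)) (fun i => red (b i)) where
  li := hli
  span := hspan
  lik := hlik
  spank := hspank
  fixed := by
    rintro σ ⟨τ, rfl⟩ i
    exact hfix i τ
  stable := by
    rintro σ ⟨τ, rfl⟩
    exact h𝔡 τ
  red := by
    intro D' _ _ v hv
    -- the integral section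
    set x : O := ∑ i, ffirC M.toRed (v i) * b i with hx
    have hxF : ((x : O) : F) = ∑ i, ((v i : A) : K) • ((b i : O) : F) := by
      rw [hx, AddSubmonoidClass.coe_finsetSum]
      refine Finset.sum_congr rfl fun i _ => ?_
      rw [Subring.coe_mul, ffirC_coe, Algebra.smul_def]
    have hxk : red x = ∑ i, residue A (v i) • red (b i) := by
      rw [hx, map_sum]
      refine Finset.sum_congr rfl fun i _ => ?_
      rw [map_mul, ffir_red_C, Algebra.smul_def]
    have hmem := ffir_red_mem_rrSpace M.div (𝔡 - D') x (by rw [hxF]; exact hv)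
    rw [ffir_mapDomain_sub, hxk] at hmem
    exact hmem

/-- one level of the integral structure: the basis of `ffir_basis` at the level `m`. -/
theorem ffdp_level (M : FfirModel A O red r ρ Dinf m0) (RR : V27RR K F g)
    (RRk : V27RR (ResidueField A) Fk g) (hdeg : ∀ P : Place K F, P.deg = 1)
    (hdegk : ∀ Q : Place (ResidueField A) Fk, Q.deg = 1) {m : ℕ} (hm : m0 ≤ m)
    (hmd : 2 * (g : ℤ) - 2 < m * Divisor.degree Dinf)
    (T : Finset (Place (ResidueField A) Fk)) :
    ∃ b : Fin (finrank K (riemannRochSpace (m • Dinf))) → O,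
      (∀ i (σ : G), ρ σ • ((b i : O) : F) = b i) ∧
      FfcdLevel A r ρ.range T (m • Dinf) (fun i => ((b i : O) : F)) (fun i => red (b i)) := by
  have := RR.hasDiv
  obtain ⟨b, -, hfix, hlik, hspank, hli, hspan⟩ := ffir_basis M RR RRk hdeg hdegk hm hmd
  refine ⟨b, hfix, ffdp_level_of_basis M T (m • Dinf) (fun σ => ?_) b hfix hlik ?_ hli hspan⟩
  · rw [smul_comm, M.Dinf_fixed σ]
  · rw [ffir_mapDomain_nsmul]
    exact hspank

/-- the level `i • 𝔡`, `𝔡 := m • Dinf`, in the spelling of `FfcdData` (`(2 : ℕ) • 𝔡`, ...). -/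
theorem ffdp_level_mul (M : FfirModel A O red r ρ Dinf m0) (RR : V27RR K F g)
    (RRk : V27RR (ResidueField A) Fk g) (hdeg : ∀ P : Place K F, P.deg = 1)
    (hdegk : ∀ Q : Place (ResidueField A) Fk, Q.deg = 1) {m : ℕ} (hm : m0 ≤ m)
    (hmd : 2 * (g : ℤ) - 2 < m * Divisor.degree Dinf) (i : ℕ) (hi : 1 ≤ i)
    (T : Finset (Place (ResidueField A) Fk)) :
    ∃ b : Fin (finrank K (riemannRochSpace (i • (m • Dinf)))) → O,
      (∀ j (σ : G), ρ σ • ((b j : O) : F) = b j) ∧
      FfcdLevel A r ρ.range T (i • (m • Dinf)) (fun j => ((b j : O) : F))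
        (fun j => red (b j)) := by
  have hd0 : 0 ≤ Divisor.degree Dinf := v27rr_degree_nonneg M.Dinf_nonneg
  have him : m0 ≤ i * m := le_trans hm (Nat.le_mul_of_pos_left m hi)
  have hmd' : 2 * (g : ℤ) - 2 < ((i * m : ℕ) : ℤ) * Divisor.degree Dinf := by
    have h1 : (m : ℤ) * Divisor.degree Dinf ≤ ((i * m : ℕ) : ℤ) * Divisor.degree Dinf := by
      apply mul_le_mul_of_nonneg_right _ hd0
      exact_mod_cast Nat.le_mul_of_pos_left m hi
    linarith
  have key : ∀ 𝔡' : Divisor K F, (i * m) • Dinf = 𝔡' →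
      ∃ b : Fin (finrank K (riemannRochSpace 𝔡')) → O,
        (∀ j (σ : G), ρ σ • ((b j : O) : F) = b j) ∧
        FfcdLevel A r ρ.range T 𝔡' (fun j => ((b j : O) : F)) (fun j => red (b j)) := by
    rintro _ rfl
    exact ffdp_level M RR RRk hdeg hdegk him hmd' T
  exact key _ (mul_nsmul' Dinf i m)

end Fermat.Agent.FF
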