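/-
Program FF (S19), core — the junction `FfirModel ⟹ FfcdData` (helper25, prefix `ffmd`).

From helper26's abstract integral model `M : FfirModel A O red r ρ Dinf m0` (FF/IntRR.lean),
Riemann–Roch on both fibres with the same genus and a level `m ≥ m0`, `5g ≤ m · deg Dinf`:
* helper13's `fffi_model` (FF/Fam/Model.lean) gives the index types `Fin (n i)`, the `G`-fixed
  integral bases `b i` of `L((i·m) Dinf)`, the table `cW` and the two fibres `fibK`, `fibk` of the
  engine;
* `ffdp_level_of_basis`, `ffdp_int` (FF/Core/DivPlug.lean) turn the bases of levels `1, 2, 3` into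
  helper1's inputs `FfcdLevel` (at `𝔡`, `2 • 𝔡`, `3 • 𝔡`, `𝔡 := m • Dinf`) and `FfcdInt`;
* helper1's `ffcd_main` (FF/Core/Div.lean) then gives `FfcdData` ON THESE BASES, `Gam := ρ.range`.
-/
import Fermat.Agent.FF.Fam.Model
import Fermat.Agent.FF.Core.DivPlug
import Fermat.Agent.FF.Core.Div

set_option autoImplicit false

noncomputable section

namespace Fermat.Agent.FF

open AlgebraicCurve IsLocalRing Module Fermat.Agent.V.RR

variable {K : Type*} [Field K] {A : ValuationSubring K}
variable {F : Type*} [Field F] [Algebra K F]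
variable {Fk : Type*} [Field Fk] [Algebra (ResidueField A) Fk]
variable {O : Subring F} {red : O →+* Fk} {G : Type*} [Group G]
variable {r : Place K F → Place (ResidueField A) Fk} {ρ : G →* SemilinearAut K F}
  {Dinf : Divisor K F} {m0 : ℕ} {g : ℕ}

/-- one level of helper1's integral structure from one basis of helper13's `FffiBasis`. -/
theorem ffmd_level [HasPrincipalDivisors K F] (M : FfirModel A O red r ρ Dinf m0)
    (T : Finset (Place (ResidueField A) Fk)) {l n : ℕ} {b : Fin n → O}
    (hb : FffiBasis A red r ρ Dinf l b) :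
    FfcdLevel A r ρ.range T (l • Dinf) (fun p => ((b p : O) : F)) (fun p => red (b p)) := by
  obtain ⟨-, hfix, hlik, hspank, hli, hspan⟩ := hb
  refine ffdp_level_of_basis M T (l • Dinf) (fun σ => ?_) b hfix hlik ?_ hli hspan
  · rw [smul_comm, M.Dinf_fixed σ]
  · rw [ffir_mapDomain_nsmul]
    exact hspank

/-- the same at the level `i • 𝔡`, `𝔡 := m • Dinf`, in the spelling of `FfcdData`. -/
theorem ffmd_level_mul [HasPrincipalDivisors K F] (M : FfirModel A O red r ρ Dinf m0)
    (T : Finset (Place (ResidueField A) Fk)) {i m n : ℕ} {b : Fin n → O}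
    (hb : FffiBasis A red r ρ Dinf (i * m) b) :
    FfcdLevel A r ρ.range T (i • (m • Dinf)) (fun p => ((b p : O) : F))
      (fun p => red (b p)) := by
  rw [← mul_smul]
  exact ffmd_level M T hb

/-- **the junction**: the abstract integral model gives the two fibres of the engine AND the
output `FfcdData` of C5a on the same bases (`ι_i := Fin (n i)`, `b_i = fibK.b i`,
`bk_i = fibk.b i`, `𝔡 = m • Dinf = fibK.dd`, `Gam = ρ.range`), for every finite bad set `T`
and every finite subgroup `Γ` of `Pic⁰`. -/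
theorem ffmd_data (M : FfirModel A O red r ρ Dinf m0) (RR : V27RR K F g)
    (RRk : V27RR (ResidueField A) Fk g) (hdeg : ∀ P : Place K F, P.deg = 1)
    (hdegk : ∀ Q : Place (ResidueField A) Fk, Q.deg = 1) [Infinite K]
    [Infinite (ResidueField A)] [Infinite (Place (ResidueField A) Fk)]
    (hd : 0 < Divisor.degree Dinf)
    {W : Type*} [CommRing W] [Algebra W ↥A]
    (hW : ∀ a : K, a ∈ ffirFix A ρ → ∃ w : W, ((algebraMap W ↥A w : ↥A) : K) = a)
    (T : Finset (Place (ResidueField A) Fk)) (Γ : AddSubgroup (Pic0 K F)) [Finite Γ]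
    (m : ℕ) (hm : m0 ≤ m) (hmd : 5 * (g : ℤ) ≤ m * Divisor.degree Dinf) :
    ∃ (n : ℕ → ℕ) (b : ∀ i, Fin (n i) → O)
      (cW : ∀ i j k : ℕ, Fin (n i) → Fin (n j) → Fin (n k) → W)
      (fibK : FffmFib (fun i => Fin (n i)) K F g
        (fun i j k p q s => ((algebraMap W ↥A (cW i j k p q s) : ↥A) : K)))
      (fibk : FffmFib (fun i => Fin (n i)) (ResidueField A) Fk g
        (fun i j k p q s => residue ↥A (algebraMap W ↥A (cW i j k p q s)))),
      fibK.dd = m • Dinf ∧ fibk.dd = m • Finsupp.mapDomain r Dinf ∧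
      (∀ i, fibK.b i = fun p => ((b i p : O) : F)) ∧ (∀ i, fibk.b i = fun p => red (b i p)) ∧
      (∀ i, 1 ≤ i → FffiBasis A red r ρ Dinf (i * m) (b i)) ∧
      Nonempty (FfcdData A r ρ.range T Γ g (m • Dinf)
        (fun p => ((b 1 p : O) : F)) (fun p => red (b 1 p))
        (fun p => ((b 2 p : O) : F)) (fun p => red (b 2 p))
        (fun p => ((b 3 p : O) : F)) (fun p => red (b 3 p))) := by
  classical
  have := RR.hasDiv
  obtain ⟨n, b, cW, fibK, fibk, h1, h2, h3, h4, hb⟩ :=
    fffi_model M RR RRk hdeg hdegk hW m hm hmd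
  refine ⟨n, b, cW, fibK, fibk, h1, h2, h3, h4, hb, ?_⟩
  have hint : FfcdInt A r ρ.range T := ffdp_int M RR RRk hdeg hdegk hd T
  have h𝔡 : 5 * (g : ℤ) ≤ Divisor.degree (m • Dinf) := by
    rw [map_nsmul, nsmul_eq_mul]
    exact hmd
  have L1 : FfcdLevel A r ρ.range T (m • Dinf) (fun p => ((b 1 p : O) : F))
      (fun p => red (b 1 p)) := by
    have := ffmd_level_mul M T (hb 1 le_rfl)
    rwa [one_smul] at this
  have L2 := ffmd_level_mul M T (hb 2 (by norm_num))
  have L3 := ffmd_level_mul M T (hb 3 (by norm_num))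
  exact ffcd_main A RR RRk hdeg hdegk hint Γ (m • Dinf) h𝔡 L1 L2 L3

end Fermat.Agent.FF
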