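/-
Program FF (S19), core: transport of (CORE-OUT) along an equivariant isomorphism, and (CORE-OUT)
for a trivial module (owner helper4, prefix `ffct`; consumer helper10's `FF/Core/Main.lean`).
-/
import Fermat.Agent.FF.Spec2

set_option autoImplicit false

namespace Fermat.Agent.FF

open scoped BigOperators

/-- composition with a map, as an algebra homomorphism of function algebras -/
def ffctComap (W : Type*) [CommSemiring W] [Algebra W FfQb] {M M' : Type} (f : M' → M) :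
    (M → FfQb) →ₐ[W] (M' → FfQb) where
  toFun φ := fun m' => φ (f m')
  map_one' := rfl
  map_mul' _ _ := rfl
  map_zero' := rfl
  map_add' _ _ := rfl
  commutes' _ := rfl

@[simp] theorem ffctComap_apply (W : Type*) [CommSemiring W] [Algebra W FfQb] {M M' : Type}
    (f : M' → M) (φ : M → FfQb) (m' : M') : ffctComap W f φ m' = φ (f m') := rfl

/-- **(CORE-OUT) is invariant under equivariant isomorphisms.** -/
theorem ffct_coreOut_equiv {M M' : Type} [AddCommGroup M] [AddCommGroup M'] (e : M ≃+ M')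
    (act : FfGal → M → M) (act' : FfGal → M' → M')
    (h : ∀ (σ : FfGal) (m : M), e (act σ m) = act' σ (e m)) (𝔸 : ValuationSubring FfQb) :
    FfCoreOut 𝔸 M act → FfCoreOut 𝔸 M' act' := by
  classical
  rintro ⟨Gen, h1, h2, h3, h4⟩
  let c : (M → FfQb) →ₐ[↥(ffWI 𝔸)] (M' → FfQb) := ffctComap ↥(ffWI 𝔸) (fun m' => e.symm m')
  have hsymm : ∀ (σ : FfGal) (m' : M'), e.symm (act' σ m') = act σ (e.symm m') := by
    intro σ m'
    apply e.injective
    rw [h, e.apply_symm_apply, e.apply_symm_apply]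
  have hadj : ∀ a ∈ Algebra.adjoin ↥(ffWI 𝔸) (↑Gen : Set (M → FfQb)),
      c a ∈ Algebra.adjoin ↥(ffWI 𝔸) (↑(Gen.image c) : Set (M' → FfQb)) := by
    intro a ha
    have : c a ∈ (Algebra.adjoin ↥(ffWI 𝔸) (↑Gen : Set (M → FfQb))).map c := ⟨a, ha, rfl⟩
    rw [AlgHom.map_adjoin] at this
    rwa [Finset.coe_image]
  refine ⟨Gen.image c, ?_, ?_, ?_, ?_⟩
  · intro φ' hφ' m'
    obtain ⟨φ, hφ, rfl⟩ := Finset.mem_image.mp hφ'
    exact h1 φ hφ _
  · intro φ' hφ' σ hσ m'
    obtain ⟨φ, hφ, rfl⟩ := Finset.mem_image.mp hφ'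
    change φ (e.symm (act' σ m')) = σ (φ (e.symm m'))
    rw [hsymm, h2 φ hφ σ hσ]
  · intro m' m'' hne
    obtain ⟨φ, hφ, hφne⟩ := h3 (e.symm m') (e.symm m'') (fun hh => hne (e.symm.injective hh))
    exact ⟨c φ, Finset.mem_image_of_mem c hφ, hφne⟩
  · intro φ' hφ'
    obtain ⟨φ, hφ, rfl⟩ := Finset.mem_image.mp hφ'
    obtain ⟨n, a, b, hab⟩ := h4 φ hφ
    refine ⟨n, fun i => ⟨c (a i).1, hadj _ (a i).2⟩, fun i => ⟨c (b i).1, hadj _ (b i).2⟩,
      fun m' m'' => ?_⟩
    change φ (e.symm (m' + m'')) = ∑ i, (a i).1 (e.symm m') * (b i).1 (e.symm m'')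
    rw [map_add, hab]

/-- **(CORE-OUT) for a trivial module**: `Gen = ∅`. -/
theorem ffct_coreOut_of_subsingleton {M : Type} [AddCommGroup M] [Subsingleton M]
    (act : FfGal → M → M) (𝔸 : ValuationSubring FfQb) : FfCoreOut 𝔸 M act :=
  ⟨∅, fun φ hφ => absurd hφ (Finset.notMem_empty φ), fun φ hφ => absurd hφ (Finset.notMem_empty φ),
    fun m m' hne => absurd (Subsingleton.elim m m') hne,
    fun φ hφ => absurd hφ (Finset.notMem_empty φ)⟩

end Fermat.Agent.FF
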