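import Fermat.Agent.FF.Core.DeltaInst
import Fermat.Agent.FF.Core.ModelData
import Fermat.Agent.FF.Core.Transfer
import Fermat.Agent.FF.IntInst.Top
import Fermat.Agent.FF.IntInst.Fix
import Fermat.Agent.FF.Top
import Fermat.Agent.G.Red.Spec
import Fermat.Agent.G.Red.InstSmall
import Fermat.Agent.S54.ExistsFrobenius

/-!
# Program FF (S19), core: the last assembly `FfCoreAll ℓ` (SPARE of helper10's `FF/Core/Main.lean`)

Owner: helper16 (program manager).  Prefix `ffcz`.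

* `ffcz_atlas`        : the reduction atlas of `G/Red` under `FfGoodLevel N ℓ`;
* `ffcz_out_of_model` : abstract integral model (helper26/helper27) + Riemann-Roch on both fibres
  ⟹ (CORE-OUT) for any finite `Γ ⊂ Pic⁰` (helper25 `ffmd_data` + helper10 `ffci_out`);
* `ffcz_all`          : `FfCoreAll ℓ`.
-/

set_option autoImplicit false
set_option linter.unusedSectionVars false
set_option linter.unusedVariables false
set_option linter.style.haveILetI false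

noncomputable section

namespace Fermat.Agent.FF

open AlgebraicCurve ModularCurve IsLocalRing Fermat.Agent.G Fermat.Agent.V.RR

/-- the reduction atlas at a good level. -/
theorem ffcz_atlas (N : ℕ) [NeZero N] {ℓ : ℕ} [Fact ℓ.Prime] (A : ValuationSubring FfQb)
    (hA : A.LiesOverPrime ℓ) (h : FfGoodLevel N ℓ) :
    ∃ τ τ' : LaurentSeries ℤ, GrdAtlas N A τ τ' := by
  obtain ⟨hℓN, h5⟩ := h
  by_cases h5' : 5 ≤ ℓ
  · obtain ⟨τ', hτ'⟩ := grd_exists_jinv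
    exact ⟨_, τ', hτ', grd_chart_j N A hℓN hA h5', grd_chart_jinv N A hℓN hA h5' τ' hτ'⟩
  · have hd : (5 - ℓ) ∣ N := h5.resolve_left h5'
    have hp : ℓ.Prime := Fact.out
    have h23 : ℓ = 2 ∨ ℓ = 3 := by
      have h2 := hp.two_le
      have hlt : ℓ < 5 := by omega
      interval_cases ℓ
      · exact Or.inl rfl
      · exact Or.inr rfl
      · exact absurd hp (by decide)
    haveI : NeZero (5 - ℓ) := ⟨by omega⟩
    refine ⟨_, _, grd_atlas_small N A (5 - ℓ) hℓN hA ?_ hd⟩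
    rcases h23 with h | h
    · exact Or.inl ⟨h, by omega⟩
    · exact Or.inr ⟨h, by omega⟩

section Abstract

variable (𝔸 : ValuationSubring FfQb) {F Fk : Type} [Field F] [Field Fk] [Algebra FfQb F]
  [Algebra (ResidueField ↥𝔸) Fk]
  {O : Subring F} {red : O →+* Fk} {G : Type*} [Group G]
  {r : Place FfQb F → Place (ResidueField ↥𝔸) Fk} {ρ : G →* SemilinearAut FfQb F}
  {Dinf : Divisor FfQb F} {m0 g : ℕ}

/-- **abstract integral model ⟹ (CORE-OUT)** for a finite subgroup of `Pic⁰`. -/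
theorem ffcz_out_of_model (M : FfirModel 𝔸 O red r ρ Dinf m0) (RR : V27RR FfQb F g)
    (RRk : V27RR (ResidueField ↥𝔸) Fk g) (hdeg : ∀ P : Place FfQb F, P.deg = 1)
    (hdegk : ∀ Q : Place (ResidueField ↥𝔸) Fk, Q.deg = 1)
    [Infinite (ResidueField ↥𝔸)] [Infinite (Place (ResidueField ↥𝔸) Fk)]
    (hd : 0 < Divisor.degree Dinf)
    (hW : ∀ a : FfQb, a ∈ ffirFix 𝔸 ρ →
      ∃ w : FfcoW 𝔸, ((algebraMap (FfcoW 𝔸) ↥𝔸 w : ↥𝔸) : FfQb) = a)
    (Γ : AddSubgroup (Pic0 FfQb F)) [Finite Γ] (act : FfGal → ↥Γ → ↥Γ)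
    (hact : ∀ σ ∈ 𝔸.inertiaSubgroupIn ℚ, ∃ τ ∈ ρ.range,
      (∀ a : FfQb, SemilinearAut.baseAut τ a = σ a) ∧
      ∀ γ : Γ, ((act σ γ : Γ) : Pic0 FfQb F) = τ • (γ : Pic0 FfQb F)) :
    FfCoreOut 𝔸 ↥Γ act := by
  classical
  have hmd : 5 * (g : ℤ) ≤ ((m0 + 5 * g : ℕ) : ℤ) * Divisor.degree Dinf := by
    have h1 : (1 : ℤ) ≤ Divisor.degree Dinf := hd
    have h2 : (0 : ℤ) ≤ ((m0 + 5 * g : ℕ) : ℤ) := Int.natCast_nonneg _
    have h3 : ((m0 + 5 * g : ℕ) : ℤ) = m0 + 5 * g := by push_cast; ring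
    have h4 : (0 : ℤ) ≤ m0 := Int.natCast_nonneg _
    nlinarith
  obtain ⟨n, b, cW, fibK, fibk, h1, h2, h3, h4, hb, ⟨dat⟩⟩ :=
    ffmd_data M RR RRk hdeg hdegk hd hW ∅ Γ (m0 + 5 * g) (Nat.le_add_right _ _) hmd
  have dat' : FfcdData 𝔸 r ρ.range ∅ Γ g fibK.dd (fibK.b 1) (fibk.b 1) (fibK.b 2) (fibk.b 2)
      (fibK.b 3) (fibk.b 3) := by
    rw [h1, h3 1, h4 1, h3 2, h4 2, h3 3, h4 3]
    exact dat
  refine ffci_out 𝔸 cW fibK fibk dat' act hact ?_ dat'.J_card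
  rw [h2, h1]
  exact (map_nsmul (ffcdPush r) _ _).symm

end Abstract

/-- **`FfCoreAll ℓ`** : (CORE-OUT) for `J₀(N)[ℓ^k]` at every good level, at some place over `ℓ`. -/
theorem ffcz_all (ℓ : ℕ) [Fact ℓ.Prime] : FfCoreAll ℓ := by
  intro N _ k hgood
  obtain ⟨𝔸, hA⟩ :=
    Fermat.Agent.S54.exists_valuationSubring_liesOverPrime (K := FfQb) (Fact.out : ℓ.Prime)
  refine ⟨𝔸, hA, ?_⟩
  obtain ⟨τ, τ', hat⟩ := ffcz_atlas N 𝔸 hA hgood
  obtain ⟨r, hr⟩ := grd_exists_isRed N 𝔸 hgood.1 hA hat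
  have M := ffii_main' N 𝔸 hgood.1 hA hat r hr
  obtain ⟨RR, RRk, hdeg, hdegk, hinf, hinfP, -, hdpos, -⟩ := ffii_bundle N 𝔸 hgood.1 hA hat
  haveI := hinf
  haveI := hinfP
  haveI := fftp_finite N ℓ k
  let S := Submodule.torsionBy ℤ (JZero N) ((ℓ : ℤ) ^ k)
  let Γ : AddSubgroup (Pic0 FfQb (modularFunctionFieldBar N)) := S.toAddSubgroup
  haveI : Finite ↥Γ := (inferInstance : Finite ↥S)
  let act : FfGal → ↥Γ → ↥Γ := fun σ γ =>
    ⟨(ffTorsAct N ((ℓ : ℤ) ^ k) σ ⟨γ.1, γ.2⟩).1, (ffTorsAct N ((ℓ : ℤ) ^ k) σ ⟨γ.1, γ.2⟩).2⟩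
  have hout : FfCoreOut 𝔸 ↥Γ act := by
    refine ffcz_out_of_model 𝔸 M RR RRk hdeg hdegk hdpos (ffii_fix_hW N 𝔸) Γ act ?_
    intro σ hσ
    exact ⟨ffigRho N 𝔸 ⟨σ, hσ⟩, ⟨⟨σ, hσ⟩, rfl⟩, fun a => rfl, fun γ => rfl⟩
  let e : ↥Γ ≃+ ↥S :=
    { toFun := fun x => ⟨x.1, x.2⟩
      invFun := fun x => ⟨x.1, x.2⟩
      left_inv := fun _ => rfl
      right_inv := fun _ => rfl
      map_add' := fun _ _ => rfl }
  exact ffct_coreOut_equiv e act (ffTorsAct N ((ℓ : ℤ) ^ k)) (fun σ m => rfl) 𝔸 hout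

end Fermat.Agent.FF
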