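/-
Program FF (S19), leaf C5b, the abstract Δ-closure (helper13, prefix `ffca`).

`A ⊂ K` a valuation ring with residue field `k`, function fields `F / K`, `Fk / k` with the two
fibres `fibK`, `fibk` of the integral model (common table `cW` over `W`), `R` a residually constant
`W`-algebra of functions `X × Y → A` (e.g. `fffrProd R_c R_c'`), points `fffrPtK R A.subtype p` and
closed point `fffrClosed R x₀`.

* `ffca_idem` : from the universal graph families over `R` (coordinates `ZX p.1`, `ZY p.2` in the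
  charts `J`, `J'`), the three fixed lattices (matrices over `W`), (G-i), (G-ii) at the closed point and
  the uniqueness of the effective divisor in the classes `D x + D' y - D₀`, `Dk + Dk' - D₀k`:
  an IDEMPOTENT `P` over `R` whose fibre at every point `p` is `L(𝔡 - D'' p)` and whose closed fibre
  is `L(𝔡k - Dk'')`  (= `fffm_add_two` + uniqueness);
* `fffm_rep_range_eq`, `ffca_rank` : the plumbing to helper10's `ffco_out_of_idem` (`hidem`):
  two matrices representing the same space have the same range; the rank of a representing matrix.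
-/
import Mathlib
import Fermat.Agent.FF.Fam.Two
import Fermat.Agent.FF.FunRing2
import Fermat.Agent.FF.Core.Graph

set_option autoImplicit false
set_option linter.unusedSectionVars false
set_option linter.unusedVariables false

noncomputable section

namespace Fermat.Agent.FF

open AlgebraicCurve Module Fermat.Agent.V.RR Matrix IsLocalRing

/-! ### change of table, ranges, graphs -/

section Cast

variable {ι : ℕ → Type} [∀ i, Fintype (ι i)] {K F : Type*} [Field K] [Field F] [Algebra K F]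
  {g : ℕ} {c c' : ∀ i j k : ℕ, ι i → ι j → ι k → K}

/-- transport of a fibre along an equality of tables -/
def FffmFib.cast (fib : FffmFib ι K F g c) (h : c = c') : FffmFib ι K F g c' := h ▸ fib

theorem FffmFib.cast_dd (fib : FffmFib ι K F g c) (h : c = c') : (fib.cast h).dd = fib.dd := by
  subst h; rfl

theorem FffmFib.cast_real (fib : FffmFib ι K F g c) (h : c = c') (i : ℕ) :
    (fib.cast h).real i = fib.real i := by
  subst h; rfl

theorem fffmRep_cast (fib : FffmFib ι K F g c) (h : c = c') (i : ℕ) {σ : Type*} [Fintype σ]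
    (N : Matrix (ι i) σ K) (A : Divisor K F) :
    FffmRep (fib.cast h) i N A ↔ FffmRep fib i N A := by
  subst h; rfl

/-- two matrices representing the same space have the same range -/
theorem fffm_rep_range_eq (fib : FffmFib ι K F g c) {i : ℕ} (h1 : 1 ≤ i) (h5 : i ≤ 5)
    {σ τ : Type*} [Fintype σ] [Fintype τ] {N : Matrix (ι i) σ K} {N' : Matrix (ι i) τ K}
    {A : Divisor K F} (hN : FffmRep fib i N A) (hN' : FffmRep fib i N' A) :
    LinearMap.range N.mulVecLin = LinearMap.range N'.mulVecLin :=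
  Submodule.map_injective_of_injective (fib.real_injective h1 h5) (hN.trans hN'.symm)

/-- a graph realizing `L(A)` gives a representing matrix -/
theorem fffm_rep_of_graph [∀ i, DecidableEq (ι i)] (fib : FffmFib ι K F g c) (i : ℕ)
    (J : Finset (ι i)) (Z : ι i → ι i → K) {A : Divisor K F}
    (h : (ffcdGraph J Z).map (fib.real i) = riemannRochSpace A) :
    FffmRep fib i (ffcdMat J Z) A := by
  rw [FffmRep, ffcd_range_mat]
  exact h

/-- the rank of a matrix representing `L(𝔡 - D'')`, `D''` of degree `g` -/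
theorem ffca_rank (fib : FffmFib ι K F g c) {σ : Type*} [Fintype σ] {N : Matrix (ι 1) σ K}
    {D'' : Divisor K F} (hN : FffmRep fib 1 N (fib.dd - D'')) (hdeg : Divisor.degree D'' = g) :
    (N.rank : ℤ) = Divisor.degree fib.dd + 1 - 2 * g := by
  have h5 := fib.hdd
  rw [fffm_rep_rank fib le_rfl (by norm_num) hN, ffkm_finrank fib.RR, map_sub, hdeg]
  · ring
  · rw [map_sub, hdeg]
    linarith

/-- a chart of the represented space separates the range of every representing matrix -/
theorem ffca_separated [∀ i, DecidableEq (ι i)] (fib : FffmFib ι K F g c) {i : ℕ} (h1 : 1 ≤ i)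
    (h5 : i ≤ 5) {σ : Type*} [Fintype σ] {N : Matrix (ι i) σ K} {A : Divisor K F}
    (hN : FffmRep fib i N A) (J : Finset (ι i)) (Z : ι i → ι i → K)
    (hZ : (ffcdGraph J Z).map (fib.real i) = riemannRochSpace A) :
    ∀ v ∈ LinearMap.range N.mulVecLin, (∀ j ∈ J, v j = 0) → v = 0 := by
  intro v hv h0
  rw [fffm_rep_range_eq fib h1 h5 hN (fffm_rep_of_graph fib i J Z hZ), ffcd_range_mat] at hv
  exact ffcd_graph_eq_zero hv h0

end Cast

/-! ### the idempotent of the sum -/

section Idem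

universe u v

variable {K : Type u} [Field K] (A : ValuationSubring K) {F Fk : Type v} [Field F] [Field Fk]
  [Algebra K F] [Algebra (ResidueField A) Fk]
  {W : Type*} [CommRing W] [Algebra W ↥A] [Algebra.IsIntegral W ↥A]
  {X Y : Type*} [Finite X] [Finite Y]
  {ι : ℕ → Type} [∀ i, Fintype (ι i)] [∀ i, DecidableEq (ι i)]
  (cW : ∀ i j k : ℕ, ι i → ι j → ι k → W) {g : ℕ}
  (fibK : FffmFib ι K F g (fun i j k p q s => ((algebraMap W ↥A (cW i j k p q s) : ↥A) : K)))
  (fibk : FffmFib ι (ResidueField A) Fk g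
    (fun i j k p q s => residue ↥A (algebraMap W ↥A (cW i j k p q s))))

/-- **the abstract Δ-closure**: the idempotent family over `R` computing `(x, y) ↦ D x + D' y - D₀`
in Khuri-Makdisi coordinates. -/
theorem ffca_idem (R : Subalgebra W (X × Y → ↥A)) (hR : FffrResConst R) (x₀ : X × Y)
    (δ : ℤ) (hδK : Divisor.degree fibK.dd = δ) (hδk : Divisor.degree fibk.dd = δ)
    (D : X → Divisor K F) (D' : Y → Divisor K F) (E D0 : Divisor K F)
    (Dk Dk' Ek D0k : Divisor (ResidueField A) Fk)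
    (hD : ∀ x, 0 ≤ D x) (hDdeg : ∀ x, Divisor.degree (D x) = g)
    (hD' : ∀ y, 0 ≤ D' y) (hD'deg : ∀ y, Divisor.degree (D' y) = g)
    (hE : 0 ≤ E) (hEdeg : Divisor.degree E = 2 * δ - 3 * g)
    (hD0 : 0 ≤ D0) (hD0deg : Divisor.degree D0 = g)
    (hDk : 0 ≤ Dk) (hDkdeg : Divisor.degree Dk = g)
    (hDk' : 0 ≤ Dk') (hDk'deg : Divisor.degree Dk' = g)
    (hEk : 0 ≤ Ek) (hEkdeg : Divisor.degree Ek = 2 * δ - 3 * g)
    (hD0k : 0 ≤ D0k) (hD0kdeg : Divisor.degree D0k = g)
    (J J' : Finset (ι 1)) (ZX : X → ι 1 → ι 1 → ↥A) (ZY : Y → ι 1 → ι 1 → ↥A)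
    (hRX : ∀ j i, (fun p : X × Y => ZX p.1 j i) ∈ R)
    (hRY : ∀ j i, (fun p : X × Y => ZY p.2 j i) ∈ R)
    (hZX : ∀ x, (ffcdGraph J (fun j i => ((ZX x j i : ↥A) : K))).map (fibK.real 1) =
      riemannRochSpace (fibK.dd - D x))
    (hZXk : (ffcdGraph J (fun j i => residue ↥A (ZX x₀.1 j i))).map (fibk.real 1) =
      riemannRochSpace (fibk.dd - Dk))
    (hZY : ∀ y, (ffcdGraph J' (fun j i => ((ZY y j i : ↥A) : K))).map (fibK.real 1) =
      riemannRochSpace (fibK.dd - D' y))
    (hZYk : (ffcdGraph J' (fun j i => residue ↥A (ZY x₀.2 j i))).map (fibk.real 1) =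
      riemannRochSpace (fibk.dd - Dk'))
    {σE σ2 σ3 : Type*} [Fintype σE] [Fintype σ2] [Fintype σ3]
    [DecidableEq σE] [DecidableEq σ2] [DecidableEq σ3]
    (GE : Matrix (ι 2) σE W) (GED : Matrix (ι 2) σ2 W) (GED3 : Matrix (ι 3) σ3 W)
    (hGE : FffmRep fibK 2 (GE.map fun w => ((algebraMap W ↥A w : ↥A) : K)) (2 • fibK.dd - E))
    (hGEk : FffmRep fibk 2 (GE.map fun w => residue ↥A (algebraMap W ↥A w)) (2 • fibk.dd - Ek))
    (hGED : FffmRep fibK 2 (GED.map fun w => ((algebraMap W ↥A w : ↥A) : K))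
      (2 • fibK.dd - E - D0))
    (hGEDk : FffmRep fibk 2 (GED.map fun w => residue ↥A (algebraMap W ↥A w))
      (2 • fibk.dd - Ek - D0k))
    (hGED3 : FffmRep fibK 3 (GED3.map fun w => ((algebraMap W ↥A w : ↥A) : K))
      (3 • fibK.dd - E - D0))
    (hGED3k : FffmRep fibk 3 (GED3.map fun w => residue ↥A (algebraMap W ↥A w))
      (3 • fibk.dd - Ek - D0k))
    (hGi : finrank (ResidueField A) (riemannRochSpace (2 • fibk.dd - Dk - Dk' - Ek)) = 1)
    (hGii : finrank (ResidueField A) (riemannRochSpace (Dk + Dk' - D0k)) = 1)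
    (D'' : X × Y → Divisor K F) (Dk'' : Divisor (ResidueField A) Fk)
    (huniq : ∀ (p : X × Y) (Δ : Divisor K F), 0 ≤ Δ →
      (Δ - (D p.1 + D' p.2 - D0)).IsPrincipal → Δ = D'' p)
    (huniqk : ∀ Δ : Divisor (ResidueField A) Fk, 0 ≤ Δ →
      (Δ - (Dk + Dk' - D0k)).IsPrincipal → Δ = Dk'') :
    ∃ P : Matrix (ι 1) (ι 1) R, P * P = P ∧
      FffmRep fibk 1 (P.map (fffrClosed R x₀).toRingHom) (fibk.dd - Dk'') ∧
      ∀ p, FffmRep fibK 1 (P.map (fffrPtK R A.subtype p)) (fibK.dd - D'' p) := by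
  classical
  have hloc : IsLocalHom (fffrClosed R x₀).toRingHom := fffrClosed_isLocalHom hR x₀
  set cR : ∀ i j k : ℕ, ι i → ι j → ι k → R :=
    fun i j k p q s => algebraMap W R (cW i j k p q s) with hcR
  have hck : (fun i j k p q s => residue ↥A (algebraMap W ↥A (cW i j k p q s))) =
      (fun (i j k : ℕ) (p : ι i) (q : ι j) (s : ι k) =>
        (fffrClosed R x₀).toRingHom (cR i j k p q s)) := rfl
  have hcK : ∀ pp : X × Y,
      (fun i j k p q s => ((algebraMap W ↥A (cW i j k p q s) : ↥A) : K)) =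
      (fun (i j k : ℕ) (p : ι i) (q : ι j) (s : ι k) =>
        fffrPtK R A.subtype pp (cR i j k p q s)) := fun pp => rfl
  -- the universal graph matrices over `R`
  set GD : Matrix (ι 1) J R := ffcdMat J (fun j i => (⟨_, hRX j i⟩ : R)) with hGDdef
  set GD' : Matrix (ι 1) J' R := ffcdMat J' (fun j i => (⟨_, hRY j i⟩ : R)) with hGD'def
  have hGDK : ∀ pp : X × Y, GD.map (fffrPtK R A.subtype pp) =
      ffcdMat J (fun j i => ((ZX pp.1 j i : ↥A) : K)) := fun pp => by
    rw [hGDdef, ffcdMat_map]; rfl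
  have hGD'K : ∀ pp : X × Y, GD'.map (fffrPtK R A.subtype pp) =
      ffcdMat J' (fun j i => ((ZY pp.2 j i : ↥A) : K)) := fun pp => by
    rw [hGD'def, ffcdMat_map]; rfl
  have hGDk : GD.map (fffrClosed R x₀).toRingHom =
      ffcdMat J (fun j i => residue ↥A (ZX x₀.1 j i)) := by
    rw [hGDdef, ffcdMat_map]; rfl
  have hGD'k : GD'.map (fffrClosed R x₀).toRingHom =
      ffcdMat J' (fun j i => residue ↥A (ZY x₀.2 j i)) := by
    rw [hGD'def, ffcdMat_map]; rfl
  obtain ⟨P, hP, ⟨Δk, hΔk0, -, hΔkp, hΔkrep⟩, hgen⟩ := fffm_add_two cR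
    (fffrClosed R x₀).toRingHom (fun pp => fffrPtK R A.subtype pp)
    (fun b hb => fffr_ptK_jointly_injective R A.subtype Subtype.val_injective b hb)
    (fibk.cast hck) (fun pp => fibK.cast (hcK pp)) δ
    (by rw [FffmFib.cast_dd]; exact hδk) (fun pp => by rw [FffmFib.cast_dd]; exact hδK)
    Dk Dk' Ek D0k (fun pp => D pp.1) (fun pp => D' pp.2) (fun _ => E) (fun _ => D0)
    hDk hDkdeg hDk' hDk'deg hEk hEkdeg hD0k hD0kdeg
    (fun pp => hD pp.1) (fun pp => hDdeg pp.1) (fun pp => hD' pp.2) (fun pp => hD'deg pp.2)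
    (fun _ => hE) (fun _ => hEdeg) (fun _ => hD0) (fun _ => hD0deg)
    GD GD' (GE.map (algebraMap W R)) (GED.map (algebraMap W R)) (GED3.map (algebraMap W R))
    (by rw [fffmRep_cast, FffmFib.cast_dd, hGDk]; exact fffm_rep_of_graph fibk 1 J _ hZXk)
    (by rw [fffmRep_cast, FffmFib.cast_dd, hGD'k]; exact fffm_rep_of_graph fibk 1 J' _ hZYk)
    (by rw [fffmRep_cast, FffmFib.cast_dd]; exact hGEk)
    (by rw [fffmRep_cast, FffmFib.cast_dd]; exact hGEDk)
    (by rw [fffmRep_cast, FffmFib.cast_dd]; exact hGED3k)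
    (fun pp => by
      rw [fffmRep_cast, FffmFib.cast_dd, hGDK]; exact fffm_rep_of_graph fibK 1 J _ (hZX pp.1))
    (fun pp => by
      rw [fffmRep_cast, FffmFib.cast_dd, hGD'K]; exact fffm_rep_of_graph fibK 1 J' _ (hZY pp.2))
    (fun pp => by rw [fffmRep_cast, FffmFib.cast_dd]; exact hGE)
    (fun pp => by rw [fffmRep_cast, FffmFib.cast_dd]; exact hGED)
    (fun pp => by rw [fffmRep_cast, FffmFib.cast_dd]; exact hGED3)
    (by rw [FffmFib.cast_dd]; exact hGi) hGii
  refine ⟨P, hP, ?_, fun pp => ?_⟩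
  · have := huniqk Δk hΔk0 hΔkp
    rw [fffmRep_cast, FffmFib.cast_dd, this] at hΔkrep
    exact hΔkrep
  · obtain ⟨Δ, hΔ0, -, hΔp, hΔrep⟩ := hgen pp
    have := huniq pp Δ hΔ0 hΔp
    rw [fffmRep_cast, FffmFib.cast_dd, this] at hΔrep
    exact hΔrep

end Idem

end Fermat.Agent.FF
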