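import Fermat.Agent.FF.Core.Glue
import Fermat.Agent.FF.PlugCR
import Fermat.Agent.FF.Core.DeltaAbs
import Fermat.Agent.FF.Core.DivSpec
import Fermat.Agent.FF.IntRR

/-!
# Program FF (S19), leaf C5b, part III: (CORE-OUT) from the divisor data of C5a and the engine

Owner: helper10.  Namespace `Fermat.Agent.FF`, prefix `ffci`.

* `ffci_graph_mem` : **identification in graph coordinates**: an idempotent family `P` over a
  residually constant ring of functions `R ⊂ (X → A)` whose fibre at every point `x` is the graph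
  (chart `J`) of a normalised matrix `Zf x` with entries in `A`, and whose closed fibre has rank
  `|J|` and is separated by `J`, has `(x ↦ Zf x j i) ∈ R`;
* `ffci_out` : (CORE-OUT) for `M = ↥Γ` from `dat : FfcdData …` (helper1, C5a), the two fibres
  `fibK`, `fibk` of the integral model and `ffca_idem` (helper13, the engine).
-/

set_option autoImplicit false

noncomputable section

namespace Fermat.Agent.FF

open AlgebraicCurve IsLocalRing Module

section GraphMem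

variable {W A X K : Type*} [CommRing W] [CommRing A] [Algebra W A] [IsLocalRing A] [Finite X]
  [Algebra.IsIntegral W A] [Field K] {ι₁ : Type*} [Fintype ι₁] [DecidableEq ι₁]

/-- reindexing the columns of a matrix by an equivalence does not change the range -/
theorem ffci_range_submatrix {m n : Type*} [Fintype m] [Fintype n] (N : Matrix ι₁ m K)
    (e : n ≃ m) :
    LinearMap.range (N.submatrix id e).mulVecLin = LinearMap.range N.mulVecLin := by
  apply le_antisymm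
  · rintro _ ⟨v, rfl⟩
    refine ⟨v ∘ e.symm, ?_⟩
    rw [Matrix.mulVecLin_apply, Matrix.mulVecLin_apply]
    funext i
    simp only [Matrix.mulVec, dotProduct, Matrix.submatrix_apply, id_eq]
    exact (Fintype.sum_equiv e _ _ fun a => by simp).symm
  · rintro _ ⟨v, rfl⟩
    refine ⟨v ∘ e, ?_⟩
    rw [Matrix.mulVecLin_apply, Matrix.mulVecLin_apply]
    funext i
    simp only [Matrix.mulVec, dotProduct, Matrix.submatrix_apply, id_eq]
    exact Fintype.sum_equiv e _ _ fun a => by simp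

/-- **Identification in graph coordinates.** -/
theorem ffci_graph_mem {R : Subalgebra W (X → A)} (hR : FffrResConst R) (x₀ : X)
    {P : Matrix ι₁ ι₁ R} (hP : P * P = P) (J : Finset ι₁)
    (hr : (P.map (fffrClosed R x₀).toRingHom).rank = J.card)
    (hsep : ∀ v ∈ LinearMap.range (P.map (fffrClosed R x₀).toRingHom).mulVecLin,
      (∀ j ∈ J, v j = 0) → v = 0)
    (φ : A →+* K) (hφ : Function.Injective φ) (Zf : X → ι₁ → ι₁ → A)
    (hnorm : ∀ x, FfcdNorm J (Zf x))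
    (hfib : ∀ x, LinearMap.range (P.map (fffrPtK R φ x)).mulVecLin =
      ffcdGraph J (fun j i => φ (Zf x j i))) (j i : ι₁) :
    (fun x => Zf x j i) ∈ R := by
  classical
  by_cases hji : j ∉ J ∨ i ∈ J
  · have : (fun x => Zf x j i) = 0 := funext fun x => hnorm x j i hji
    rw [this]
    exact Subalgebra.zero_mem _
  push Not at hji
  obtain ⟨hj, hi⟩ := hji
  set e : Fin J.card ≃ ↥J := J.equivFin.symm with he
  set f : Fin J.card → ι₁ := fun a => (e a).1 with hf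
  have hsep' : ∀ v ∈ LinearMap.range (P.map (fffrClosed R x₀).toRingHom).mulVecLin,
      v ∘ f = 0 → v = 0 := by
    intro v hv h0
    refine hsep v hv fun j' hj' => ?_
    have := congrFun h0 (e.symm ⟨j', hj'⟩)
    simpa [hf] using this
  have key : (fun x => Zf x j i) = ((ffchZ P f i (e.symm ⟨j, hj⟩) : R) : X → A) := by
    funext x
    apply hφ
    set Z' : Matrix ι₁ (Fin J.card) K :=
      (ffcdMat J (fun j i => φ (Zf x j i))).submatrix id e with hZ'
    have h1 : Z'.submatrix f id = 1 := by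
      ext a b
      show ffcdVec J (fun j i => φ (Zf x j i)) ((e b : ↥J) : ι₁) ((e a : ↥J) : ι₁) =
        (1 : Matrix (Fin J.card) (Fin J.card) K) a b
      rw [ffcdVec_apply_mem _ _ (e a).2, Matrix.one_apply]
      by_cases hab : a = b
      · rw [if_pos hab, if_pos (by rw [hab])]
      · rw [if_neg hab, if_neg]
        intro h
        exact hab (e.injective (Subtype.ext h))
    have h2 : LinearMap.range Z'.mulVecLin =
        LinearMap.range (P.map (fffrPtK R φ x)).mulVecLin := by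
      rw [hZ', ffci_range_submatrix, ffcd_range_mat, hfib x]
    have h3 := ffpc_chart_eval hR x₀ hP hr f hsep' φ x Z' h1 h2 i (e.symm ⟨j, hj⟩)
    rw [← h3]
    show φ (Zf x j i) = ffcdVec J (fun j i => φ (Zf x j i)) ((e (e.symm ⟨j, hj⟩) : ↥J) : ι₁) i
    rw [Equiv.apply_symm_apply]
    exact (ffcdVec_apply_notMem (fun j i => φ (Zf x j i)) j hi).symm
  rw [key]
  exact (ffchZ P f i (e.symm ⟨j, hj⟩)).2

end GraphMem

section Out

variable (𝔸 : ValuationSubring FfQb) {F Fk : Type} [Field F] [Field Fk] [Algebra FfQb F]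
  [Algebra (ResidueField ↥𝔸) Fk]
  {r : Place FfQb F → Place (ResidueField ↥𝔸) Fk} {Gam : Subgroup (SemilinearAut FfQb F)}
  {T : Finset (Place (ResidueField ↥𝔸) Fk)} {Γ : AddSubgroup (Pic0 FfQb F)} {g : ℕ}
  {ι : ℕ → Type} [∀ i, Fintype (ι i)] [∀ i, DecidableEq (ι i)]
  (cW : ∀ i j k : ℕ, ι i → ι j → ι k → FfcoW 𝔸)
  (fibK : FffmFib ι FfQb F g
    (fun i j k p q s => ((algebraMap (FfcoW 𝔸) ↥𝔸 (cW i j k p q s) : ↥𝔸) : FfQb)))
  (fibk : FffmFib ι (ResidueField ↥𝔸) Fk g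
    (fun i j k p q s => residue ↥𝔸 (algebraMap (FfcoW 𝔸) ↥𝔸 (cW i j k p q s))))

/-- the push-forward preserves effectivity -/
theorem ffci_push_nonneg (r : Place FfQb F → Place (ResidueField ↥𝔸) Fk) {D : Divisor FfQb F}
    (hD : 0 ≤ D) : 0 ≤ ffcdPush r D :=
  ffir_mapDomain_nonneg r hD

/-- the push-forward preserves the degree (all places of degree one) -/
theorem ffci_push_degree (r : Place FfQb F → Place (ResidueField ↥𝔸) Fk)
    (hdeg : ∀ P : Place FfQb F, P.deg = 1) (hdegk : ∀ Q : Place (ResidueField ↥𝔸) Fk, Q.deg = 1)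
    (D : Divisor FfQb F) : Divisor.degree (ffcdPush r D) = Divisor.degree D :=
  ffir_degree_mapDomain r hdeg hdegk D

/-- **(CORE-OUT) for `M = ↥Γ`** from the divisor data of C5a, the two fibres of the integral
model and the engine. -/
theorem ffci_out [Finite Γ]
    (dat : FfcdData 𝔸 r Gam T Γ g fibK.dd (fibK.b 1) (fibk.b 1) (fibK.b 2) (fibk.b 2)
      (fibK.b 3) (fibk.b 3))
    (act : FfGal → ↥Γ → ↥Γ)
    (hact : ∀ σ ∈ 𝔸.inertiaSubgroupIn ℚ, ∃ τ ∈ Gam,
      (∀ a : FfQb, SemilinearAut.baseAut τ a = σ a) ∧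
      ∀ γ : Γ, ((act σ γ : Γ) : Pic0 FfQb F) = τ • (γ : Pic0 FfQb F))
    (hdk : fibk.dd = ffcdPush r fibK.dd)
    (hJ : ∀ γ, ((dat.J (dat.rho γ)).card : ℤ) = Divisor.degree fibK.dd + 1 - 2 * g) :
    FfCoreOut 𝔸 ↥Γ act := by
  classical
  haveI : Finite ↥dat.rho.range := Finite.of_surjective _ dat.rho.rangeRestrict_surjective
  letI : Fintype ↥dat.rho.range := Fintype.ofFinite _
  set ρ : ↥Γ →+ ↥dat.rho.range := dat.rho.rangeRestrict with hρdef
  set z : ι 1 × ι 1 → ↥Γ → FfQb := fun ji γ => ((dat.Z γ ji.1 ji.2 : ↥𝔸) : FfQb) with hz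
  have hval : ∀ ji γ, z ji γ ∈ 𝔸 := fun ji γ => (dat.Z γ ji.1 ji.2).2
  have hδk : Divisor.degree fibk.dd = Divisor.degree fibK.dd := by
    rw [hdk]
    exact ffci_push_degree 𝔸 r fibK.hdeg1 fibk.hdeg1 _
  have hfixW : ∀ a : ↥𝔸, (∀ τ ∈ Gam, SemilinearAut.baseAut τ (a : FfQb) = a) →
      (a : FfQb) ∈ ffW 𝔸 (𝔸.inertiaSubgroupIn ℚ) := by
    intro a ha
    refine ⟨a.2, fun σ hσ => ?_⟩
    obtain ⟨τ, hτ, hτb, -⟩ := hact σ hσ
    rw [← hτb]
    exact ha τ hτ
  refine (ffco_out_of_prod act 𝔸 ρ z hval ?_ ?_ ?_ ?_).coreOut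
  · intro σ hσ m
    obtain ⟨τ, hτ, -, hτm⟩ := hact σ hσ
    exact Subtype.ext (dat.rho_smul τ hτ m (act σ m) (hτm m))
  · intro ji σ hσ m
    obtain ⟨τ, hτ, hτb, hτm⟩ := hact σ hσ
    show ((dat.Z (act σ m) ji.1 ji.2 : ↥𝔸) : FfQb) = σ ((dat.Z m ji.1 ji.2 : ↥𝔸) : FfQb)
    rw [dat.Z_smul τ hτ m (act σ m) (hτm m) ji.1 ji.2, hτb]
  · intro m m' h1 h2
    refine dat.Z_inj m m' (congrArg Subtype.val h1) ?_
    funext j i
    exact Subtype.ext (h2 (j, i))
  · intro c c' ji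
    rcases isEmpty_or_nonempty (FfcoFib ρ c × FfcoFib ρ c') with hE | ⟨⟨x₀⟩⟩
    · have h0 : ffcoSum 𝔸 ρ z hval c c' ji = 0 := funext fun p => (hE.false p).elim
      rw [h0]
      exact Subalgebra.zero_mem _
    have hRc : ∀ c₁, FffrResConst (ffcoR 𝔸 ρ z hval c₁) := by
      intro c₁
      refine fffr_resConst_adjoin _ ?_
      rintro _ ⟨ji', rfl⟩ x y
      exact dat.Z_res x.1 y.1 (congrArg Subtype.val (x.2.trans y.2.symm)) ji'.1 ji'.2
    have hR : FffrResConst (fffrProd (ffcoR 𝔸 ρ z hval c) (ffcoR 𝔸 ρ z hval c')) :=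
      (hRc c).prod (hRc c')
    -- classes
    have hx : ∀ x : FfcoFib ρ c, dat.rho x.1 = c.1 := fun x => congrArg Subtype.val x.2
    have hy : ∀ y : FfcoFib ρ c', dat.rho y.1 = c'.1 := fun y => congrArg Subtype.val y.2
    have hxy : ∀ p : FfcoFib ρ c × FfcoFib ρ c',
        dat.rho (p.1.1 + p.2.1) = dat.rho (x₀.1.1 + x₀.2.1) := by
      intro p
      rw [map_add, map_add, hx, hy, hx, hy]
    -- divisors of the special fibre
    have hDk0 : ∀ γ, 0 ≤ dat.Dk (dat.rho γ) := fun γ => by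
      rw [← dat.D_push γ]
      exact ffci_push_nonneg 𝔸 r (dat.D_nonneg γ)
    have hDkd : ∀ γ, Divisor.degree (dat.Dk (dat.rho γ)) = g := fun γ => by
      rw [← dat.D_push γ, ffci_push_degree 𝔸 r fibK.hdeg1 fibk.hdeg1, dat.D_deg γ]
    -- the fixed lattices over `W`
    set ZEW : ι 2 → ι 2 → FfcoW 𝔸 := fun j i =>
      ⟨((dat.ZE j i : ↥𝔸) : FfQb), hfixW _ fun τ hτ => dat.ZE_fix τ hτ j i⟩ with hZEW
    set ZFW : ι 2 → ι 2 → FfcoW 𝔸 := fun j i =>
      ⟨((dat.ZF j i : ↥𝔸) : FfQb), hfixW _ fun τ hτ => dat.ZF_fix τ hτ j i⟩ with hZFW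
    set ZGW : ι 3 → ι 3 → FfcoW 𝔸 := fun j i =>
      ⟨((dat.ZG j i : ↥𝔸) : FfQb), hfixW _ fun τ hτ => dat.ZG_fix τ hτ j i⟩ with hZGW
    have hmapK : ∀ {ι' : Type} [Fintype ι'] [DecidableEq ι'] (J : Finset ι')
        (Z : ι' → ι' → FfcoW 𝔸),
        (ffcdMat J Z).map (fun w => ((algebraMap (FfcoW 𝔸) ↥𝔸 w : ↥𝔸) : FfQb)) =
          ffcdMat J (fun j i => ((algebraMap (FfcoW 𝔸) ↥𝔸 (Z j i) : ↥𝔸) : FfQb)) :=
      fun J Z => ffcdMat_map (𝔸.subtype.comp (algebraMap (FfcoW 𝔸) ↥𝔸)) J Z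
    have hmapk : ∀ {ι' : Type} [Fintype ι'] [DecidableEq ι'] (J : Finset ι')
        (Z : ι' → ι' → FfcoW 𝔸),
        (ffcdMat J Z).map (fun w => residue ↥𝔸 (algebraMap (FfcoW 𝔸) ↥𝔸 w)) =
          ffcdMat J (fun j i => residue ↥𝔸 (algebraMap (FfcoW 𝔸) ↥𝔸 (Z j i))) :=
      fun J Z => ffcdMat_map ((residue ↥𝔸).comp (algebraMap (FfcoW 𝔸) ↥𝔸)) J Z
    obtain ⟨P, hP, hPk, hPK⟩ := ffca_idem 𝔸 cW fibK fibk
      (fffrProd (ffcoR 𝔸 ρ z hval c) (ffcoR 𝔸 ρ z hval c')) hR x₀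
      (Divisor.degree fibK.dd) rfl hδk
      (fun x => dat.D x.1) (fun y => dat.D y.1) dat.E dat.D0
      (dat.Dk c.1) (dat.Dk c'.1) (ffcdPush r dat.E) (ffcdPush r dat.D0)
      (fun x => dat.D_nonneg x.1) (fun x => dat.D_deg x.1)
      (fun y => dat.D_nonneg y.1) (fun y => dat.D_deg y.1)
      dat.E_nonneg dat.E_deg dat.D0_nonneg dat.D0_deg
      (by rw [← hx x₀.1]; exact hDk0 _) (by rw [← hx x₀.1]; exact hDkd _)
      (by rw [← hy x₀.2]; exact hDk0 _) (by rw [← hy x₀.2]; exact hDkd _)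
      (ffci_push_nonneg 𝔸 r dat.E_nonneg)
      (by rw [ffci_push_degree 𝔸 r fibK.hdeg1 fibk.hdeg1, dat.E_deg])
      (ffci_push_nonneg 𝔸 r dat.D0_nonneg)
      (by rw [ffci_push_degree 𝔸 r fibK.hdeg1 fibk.hdeg1, dat.D0_deg])
      (dat.J c.1) (dat.J c'.1) (fun x => dat.Z x.1) (fun y => dat.Z y.1)
      (fun j i => fffr_pullL_mem_prod _ _ (ffcoZ_mem_R 𝔸 ρ z hval c (j, i)))
      (fun j i => fffr_pullR_mem_prod _ _ (ffcoZ_mem_R 𝔸 ρ z hval c' (j, i)))
      (fun x => by rw [← hx x]; exact dat.Z_gen x.1)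
      (by rw [← hx x₀.1, hdk]; exact dat.Z_spec x₀.1.1)
      (fun y => by rw [← hy y]; exact dat.Z_gen y.1)
      (by rw [← hy x₀.2, hdk]; exact dat.Z_spec x₀.2.1)
      (ffcdMat dat.JE ZEW) (ffcdMat dat.JF ZFW) (ffcdMat dat.JG ZGW)
      (by rw [hmapK]; exact fffm_rep_of_graph fibK 2 dat.JE _ dat.ZE_gen)
      (by rw [hmapk, hdk]; exact fffm_rep_of_graph fibk 2 dat.JE _ dat.ZE_spec)
      (by rw [hmapK]; exact fffm_rep_of_graph fibK 2 dat.JF _ dat.ZF_gen)
      (by rw [hmapk, hdk]; exact fffm_rep_of_graph fibk 2 dat.JF _ dat.ZF_spec)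
      (by rw [hmapK]; exact fffm_rep_of_graph fibK 3 dat.JG _ dat.ZG_gen)
      (by rw [hmapk, hdk]; exact fffm_rep_of_graph fibk 3 dat.JG _ dat.ZG_spec)
      (by rw [← hx x₀.1, ← hy x₀.2, hdk]; exact dat.Gi x₀.1.1 x₀.2.1)
      (by rw [← hx x₀.1, ← hy x₀.2]; exact dat.Gii x₀.1.1 x₀.2.1)
      (fun p => dat.D (p.1.1 + p.2.1)) (dat.Dk (dat.rho (x₀.1.1 + x₀.2.1)))
      (fun p Δ h0 hp => dat.D_unique p.1.1 p.2.1 Δ h0 hp)
      (fun Δ h0 hp => by
        rw [← hx x₀.1, ← hy x₀.2] at hp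
        exact dat.Dk_unique x₀.1.1 x₀.2.1 Δ h0 hp)
    -- identification
    have hkey := ffci_graph_mem hR x₀ hP (dat.J (dat.rho (x₀.1.1 + x₀.2.1))) ?_ ?_ 𝔸.subtype
      Subtype.val_injective (fun p => dat.Z (p.1.1 + p.2.1)) ?_ ?_ ji.1 ji.2
    · exact hkey
    · -- closed rank
      have h1 := ffca_rank fibk hPk (hDkd _)
      have h2 := hJ (x₀.1.1 + x₀.2.1)
      rw [hδk] at h1
      exact_mod_cast h1.trans h2.symm
    · -- separation
      refine ffca_separated fibk le_rfl (by norm_num) hPk _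
        (fun j i => residue ↥𝔸 (dat.Z (x₀.1.1 + x₀.2.1) j i)) ?_
      rw [hdk]
      exact dat.Z_spec (x₀.1.1 + x₀.2.1)
    · intro p
      rw [← hxy p]
      exact dat.Z_norm _
    · intro p
      rw [← hxy p]
      have h1 := fffm_rep_of_graph fibK 1 (dat.J (dat.rho (p.1.1 + p.2.1))) _
        (dat.Z_gen (p.1.1 + p.2.1))
      rw [fffm_rep_range_eq fibK le_rfl (by norm_num) (hPK p) h1, ffcd_range_mat]
      rfl

end Out

end Fermat.Agent.FF
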