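import Fermat.Agent.FF.Spec2
import Fermat.Agent.FF.FunRing
import Fermat.Agent.FF.InertiaW

/-!
# Program FF (S19), leaf C5b, part I: from coordinate functions to (CORE-OUT)

Owner: helper10.  Namespace `Fermat.Agent.FF`, prefix `ffco`.

Abstract setting: `M` a finite abelian group with an action of `Gal(ℚ̄/ℚ)`, `𝔸 ⊂ ℚ̄` a valuation
ring, `I` its inertia group, `W = ffW 𝔸 I`; `ρ : M →+ C` an `I`-invariant additive map to a finite
group (the reduction of classes), `z : J → M → ℚ̄` finitely many `𝔸`-valued `I`-equivariant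
coordinate functions, jointly injective on every fibre of `ρ`.

* `ffcoInd ρ c`  : the indicator function of the fibre `ρ⁻¹ c`;
* `ffcoGen ρ z`  : the finite set `{e_c} ∪ {z_j}` of functions;
* `FfcoOut 𝔸 act Gen` : (CORE-OUT), the literal (L1)-(L4) with `a i, b i ∈ Algebra.adjoin W Gen`;
* `ffco_out_of_key`  : (CORE-OUT) from the key property
  `z j (m + m') = ∑ i, a i m * b i m'` on `ρ⁻¹ c × ρ⁻¹ c'` with `a i, b i ∈ W[Gen]`;
* `ffcoFib ρ c`, `ffcoZ`, `ffcoR` : the fibre `X_c`, the coordinate functions restricted to it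
  (values in `↥𝔸`) and the ring `R_c = W[z|X_c] ⊂ (X_c → ↥𝔸)`;
* `ffco_ext_mem`     : the extension by zero of an element of `R_c` lies in `W[Gen]`;
* `ffco_key_of_prod` : the key property from
  `((x, y) ↦ z j (x + y)) ∈ fffrProd R_c R_c'` (what the engine produces);
* `ffco_out_of_prod` : both together.
-/

set_option autoImplicit false

noncomputable section

namespace Fermat.Agent.FF

open scoped Classical

variable {M : Type} [AddCommGroup M] (act : FfGal → M → M) (𝔸 : ValuationSubring FfQb)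

/-- the base ring `W = 𝔸^I` as a type -/
abbrev FfcoW : Type := ↥(ffW 𝔸 (𝔸.inertiaSubgroupIn ℚ))

/-- **(CORE-OUT)**: a finite set `Gen` of `𝔸`-valued, inertia-equivariant functions separating the
points of `M`, with `Δ(Gen) ⊂ W[Gen] ⊗ W[Gen]`. -/
structure FfcoOut (Gen : Finset (M → FfQb)) : Prop where
  val : ∀ φ ∈ Gen, ∀ m, φ m ∈ 𝔸
  equiv : ∀ φ ∈ Gen, ∀ σ ∈ 𝔸.inertiaSubgroupIn ℚ, ∀ m, φ (act σ m) = σ (φ m)
  sep : ∀ m m' : M, m ≠ m' → ∃ φ ∈ Gen, φ m ≠ φ m'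
  comul : ∀ φ ∈ Gen, ∃ (n : ℕ) (a b : Fin n → M → FfQb),
    (∀ i, a i ∈ Algebra.adjoin (FfcoW 𝔸) (Gen : Set (M → FfQb)) ∧
      b i ∈ Algebra.adjoin (FfcoW 𝔸) (Gen : Set (M → FfQb))) ∧
    ∀ m m', φ (m + m') = ∑ i, a i m * b i m'

section Abs

variable {C : Type} [AddCommGroup C] [Fintype C] {J : Type} [Fintype J]

/-- the indicator function of the fibre of `ρ` over `c` -/
def ffcoInd (ρ : M → C) (c : C) : M → FfQb := fun m => if ρ m = c then 1 else 0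

theorem ffcoInd_apply (ρ : M → C) (c : C) (m : M) :
    ffcoInd ρ c m = if ρ m = c then 1 else 0 := rfl

theorem ffcoInd_self (ρ : M → C) (m : M) : ffcoInd ρ (ρ m) m = 1 := by
  rw [ffcoInd_apply, if_pos rfl]

theorem ffcoInd_of_ne (ρ : M → C) {c : C} {m : M} (h : ρ m ≠ c) : ffcoInd ρ c m = 0 := by
  rw [ffcoInd_apply, if_neg h]

/-- the generators `{e_c} ∪ {z_j}` -/
def ffcoGen (ρ : M → C) (z : J → M → FfQb) : Finset (M → FfQb) :=
  (Finset.univ.image fun c : C => ffcoInd ρ c) ∪ Finset.univ.image z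

theorem mem_ffcoGen {ρ : M → C} {z : J → M → FfQb} {φ : M → FfQb} :
    φ ∈ ffcoGen ρ z ↔ (∃ c, ffcoInd ρ c = φ) ∨ ∃ j, z j = φ := by
  unfold ffcoGen
  rw [Finset.mem_union, Finset.mem_image, Finset.mem_image]
  simp only [Finset.mem_univ, true_and]

theorem ffcoInd_mem_gen (ρ : M → C) (z : J → M → FfQb) (c : C) : ffcoInd ρ c ∈ ffcoGen ρ z :=
  mem_ffcoGen.2 (Or.inl ⟨c, rfl⟩)

theorem ffco_z_mem_gen (ρ : M → C) (z : J → M → FfQb) (j : J) : z j ∈ ffcoGen ρ z :=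
  mem_ffcoGen.2 (Or.inr ⟨j, rfl⟩)

/-- reindexing a finite sum of products by `Fin n` -/
theorem ffco_reindex {ι : Type} [Fintype ι] (P : (M → FfQb) → Prop) (a b : ι → M → FfQb)
    (ha : ∀ i, P (a i)) (hb : ∀ i, P (b i)) :
    ∃ (n : ℕ) (a' b' : Fin n → M → FfQb), (∀ i, P (a' i) ∧ P (b' i)) ∧
      ∀ m m', ∑ i, a i m * b i m' = ∑ i, a' i m * b' i m' := by
  refine ⟨Fintype.card ι, fun i => a ((Fintype.equivFin ι).symm i),
    fun i => b ((Fintype.equivFin ι).symm i), fun i => ⟨ha _, hb _⟩, fun m m' => ?_⟩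
  exact (Equiv.sum_comp (Fintype.equivFin ι).symm fun i => a i m * b i m').symm

/-- **(CORE-OUT) from the key property.** -/
theorem ffco_out_of_key (ρ : M →+ C) (z : J → M → FfQb)
    (hρ : ∀ σ ∈ 𝔸.inertiaSubgroupIn ℚ, ∀ m, ρ (act σ m) = ρ m)
    (hval : ∀ j m, z j m ∈ 𝔸)
    (hequiv : ∀ j, ∀ σ ∈ 𝔸.inertiaSubgroupIn ℚ, ∀ m, z j (act σ m) = σ (z j m))
    (hinj : ∀ m m', ρ m = ρ m' → (∀ j, z j m = z j m') → m = m')
    (hkey : ∀ (c c' : C) (j : J), ∃ (n : ℕ) (a b : Fin n → M → FfQb),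
      (∀ i, a i ∈ Algebra.adjoin (FfcoW 𝔸) (ffcoGen (⇑ρ) z : Set (M → FfQb)) ∧
        b i ∈ Algebra.adjoin (FfcoW 𝔸) (ffcoGen (⇑ρ) z : Set (M → FfQb))) ∧
      ∀ m m', ρ m = c → ρ m' = c' → z j (m + m') = ∑ i, a i m * b i m') :
    FfcoOut act 𝔸 (ffcoGen (⇑ρ) z) := by
  set S := Algebra.adjoin (FfcoW 𝔸) (ffcoGen (⇑ρ) z : Set (M → FfQb)) with hS
  have hind : ∀ c, ffcoInd (⇑ρ) c ∈ S := fun c =>
    Algebra.subset_adjoin (Finset.mem_coe.2 (ffcoInd_mem_gen _ _ c))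
  refine ⟨?_, ?_, ?_, ?_⟩
  · intro φ hφ m
    rcases mem_ffcoGen.1 hφ with ⟨c, rfl⟩ | ⟨j, rfl⟩
    · rw [ffcoInd_apply]
      split_ifs
      · exact 𝔸.one_mem
      · exact 𝔸.zero_mem
    · exact hval j m
  · intro φ hφ σ hσ m
    rcases mem_ffcoGen.1 hφ with ⟨c, rfl⟩ | ⟨j, rfl⟩
    · rw [ffcoInd_apply, ffcoInd_apply, hρ σ hσ m]
      split_ifs
      · rw [map_one]
      · rw [map_zero]
    · exact hequiv j σ hσ m
  · intro m m' hne
    by_cases hc : ρ m = ρ m'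
    · by_contra hcon
      push_neg at hcon
      exact hne (hinj m m' hc fun j => hcon (z j) (ffco_z_mem_gen _ _ j))
    · refine ⟨ffcoInd (⇑ρ) (ρ m), ffcoInd_mem_gen _ _ _, ?_⟩
      rw [ffcoInd_self, ffcoInd_of_ne _ (Ne.symm hc)]
      exact one_ne_zero
  · intro φ hφ
    rcases mem_ffcoGen.1 hφ with ⟨c, rfl⟩ | ⟨j, rfl⟩
    · -- `e_c (m + m') = ∑_{c'} e_{c'} m * e_{c - c'} m'`
      obtain ⟨n, a', b', hab, hsum⟩ := ffco_reindex (fun f => f ∈ S)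
        (fun c' : C => ffcoInd (⇑ρ) c') (fun c' : C => ffcoInd (⇑ρ) (c - c'))
        (fun c' => hind c') (fun c' => hind _)
      refine ⟨n, a', b', hab, fun m m' => ?_⟩
      rw [← hsum m m', Finset.sum_eq_single (ρ m)]
      · rw [ffcoInd_self, one_mul, ffcoInd_apply, ffcoInd_apply, map_add]
        congr 1
        exact propext ⟨fun h => by rw [← h]; abel, fun h => by rw [h]; abel⟩
      · intro c' _ hc'
        rw [ffcoInd_of_ne _ (Ne.symm hc'), zero_mul]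
      · intro h
        exact absurd (Finset.mem_univ _) h
    · -- `z_j (m + m') = ∑_{c, c'} ∑_i (e_c a_i) m * (e_{c'} b_i) m'`
      choose n a b hab hsum using fun p : C × C => hkey p.1 p.2 j
      obtain ⟨n', a', b', hab', hsum'⟩ := ffco_reindex (fun f => f ∈ S)
        (fun q : Σ p : C × C, Fin (n p) => ffcoInd (⇑ρ) q.1.1 * a q.1 q.2)
        (fun q : Σ p : C × C, Fin (n p) => ffcoInd (⇑ρ) q.1.2 * b q.1 q.2)
        (fun q => Subalgebra.mul_mem _ (hind _) (hab q.1 q.2).1)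
        (fun q => Subalgebra.mul_mem _ (hind _) (hab q.1 q.2).2)
      refine ⟨n', a', b', hab', fun m m' => ?_⟩
      rw [← hsum' m m', Fintype.sum_sigma, Finset.sum_eq_single (ρ m, ρ m')]
      · rw [hsum (ρ m, ρ m') m m' rfl rfl]
        refine Finset.sum_congr rfl fun i _ => ?_
        simp only [Pi.mul_apply, ffcoInd_self, one_mul]
      · intro p _ hp
        refine Finset.sum_eq_zero fun i _ => ?_
        simp only [Pi.mul_apply]
        by_cases h1 : ρ m = p.1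
        · have h2 : ρ m' ≠ p.2 := fun h2 => hp (Prod.ext h1.symm h2.symm)
          rw [ffcoInd_of_ne _ h2, zero_mul, mul_zero]
        · rw [ffcoInd_of_ne _ h1, zero_mul, zero_mul]
      · intro h
        exact absurd (Finset.mem_univ _) h

end Abs

/-! ### fibres, the rings `R_c`, extension by zero -/

section Fib

variable {C : Type} [AddCommGroup C] [Fintype C] {J : Type} [Fintype J]
variable (ρ : M →+ C) (z : J → M → FfQb) (hval : ∀ j m, z j m ∈ 𝔸)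

/-- the fibre `X_c = ρ⁻¹ c` -/
abbrev FfcoFib (c : C) : Type := {m : M // ρ m = c}

/-- the coordinate functions on the fibre, with values in `↥𝔸` -/
def ffcoZ (c : C) (j : J) : FfcoFib ρ c → ↥𝔸 := fun x => ⟨z j x.1, hval j x.1⟩

@[simp] theorem ffcoZ_coe (c : C) (j : J) (x : FfcoFib ρ c) :
    ((ffcoZ 𝔸 ρ z hval c j x : 𝔸) : FfQb) = z j x.1 := rfl

/-- the ring `R_c = W[z | X_c]` of functions on the fibre -/
def ffcoR (c : C) : Subalgebra (FfcoW 𝔸) (FfcoFib ρ c → ↥𝔸) :=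
  Algebra.adjoin (FfcoW 𝔸) (Set.range (ffcoZ 𝔸 ρ z hval c))

theorem ffcoZ_mem_R (c : C) (j : J) : ffcoZ 𝔸 ρ z hval c j ∈ ffcoR 𝔸 ρ z hval c :=
  Algebra.subset_adjoin ⟨j, rfl⟩

/-- extension by zero of an `𝔸`-valued function on the fibre -/
def ffcoExt (c : C) (f : FfcoFib ρ c → ↥𝔸) : M → FfQb :=
  fun m => if h : ρ m = c then ((f ⟨m, h⟩ : 𝔸) : FfQb) else 0

theorem ffcoExt_of_mem (c : C) (f : FfcoFib ρ c → ↥𝔸) {m : M} (h : ρ m = c) :
    ffcoExt 𝔸 ρ c f m = ((f ⟨m, h⟩ : 𝔸) : FfQb) := by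
  rw [ffcoExt, dif_pos h]

theorem ffcoExt_of_ne (c : C) (f : FfcoFib ρ c → ↥𝔸) {m : M} (h : ρ m ≠ c) :
    ffcoExt 𝔸 ρ c f m = 0 := by
  rw [ffcoExt, dif_neg h]

theorem ffcoExt_add (c : C) (f g : FfcoFib ρ c → ↥𝔸) :
    ffcoExt 𝔸 ρ c (f + g) = ffcoExt 𝔸 ρ c f + ffcoExt 𝔸 ρ c g := by
  funext m
  by_cases h : ρ m = c
  · rw [Pi.add_apply, ffcoExt_of_mem _ _ _ _ h, ffcoExt_of_mem _ _ _ _ h,
      ffcoExt_of_mem _ _ _ _ h, Pi.add_apply]
    rfl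
  · rw [Pi.add_apply, ffcoExt_of_ne _ _ _ _ h, ffcoExt_of_ne _ _ _ _ h,
      ffcoExt_of_ne _ _ _ _ h, add_zero]

theorem ffcoExt_mul (c : C) (f g : FfcoFib ρ c → ↥𝔸) :
    ffcoExt 𝔸 ρ c (f * g) = ffcoExt 𝔸 ρ c f * ffcoExt 𝔸 ρ c g := by
  funext m
  by_cases h : ρ m = c
  · rw [Pi.mul_apply, ffcoExt_of_mem _ _ _ _ h, ffcoExt_of_mem _ _ _ _ h,
      ffcoExt_of_mem _ _ _ _ h, Pi.mul_apply]
    rfl
  · rw [Pi.mul_apply, ffcoExt_of_ne _ _ _ _ h, ffcoExt_of_ne _ _ _ _ h,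
      ffcoExt_of_ne _ _ _ _ h, mul_zero]

theorem ffcoExt_algebraMap (c : C) (w : FfcoW 𝔸) :
    ffcoExt 𝔸 ρ c (algebraMap (FfcoW 𝔸) (FfcoFib ρ c → ↥𝔸) w) = w • ffcoInd (⇑ρ) c := by
  funext m
  by_cases h : ρ m = c
  · rw [ffcoExt_of_mem _ _ _ _ h, Pi.smul_apply, ffcoInd_apply, if_pos h, Algebra.smul_def,
      mul_one]
    rfl
  · rw [ffcoExt_of_ne _ _ _ _ h, Pi.smul_apply, ffcoInd_apply, if_neg h, smul_zero]

theorem ffcoExt_Z (c : C) (j : J) :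
    ffcoExt 𝔸 ρ c (ffcoZ 𝔸 ρ z hval c j) = ffcoInd (⇑ρ) c * z j := by
  funext m
  by_cases h : ρ m = c
  · rw [ffcoExt_of_mem _ _ _ _ h, Pi.mul_apply, ffcoInd_apply, if_pos h, one_mul]
    rfl
  · rw [ffcoExt_of_ne _ _ _ _ h, Pi.mul_apply, ffcoInd_apply, if_neg h, zero_mul]

/-- **the extension by zero of an element of `R_c` lies in `W[Gen]`.** -/
theorem ffco_ext_mem (c : C) {f : FfcoFib ρ c → ↥𝔸} (hf : f ∈ ffcoR 𝔸 ρ z hval c) :
    ffcoExt 𝔸 ρ c f ∈ Algebra.adjoin (FfcoW 𝔸) (ffcoGen (⇑ρ) z : Set (M → FfQb)) := by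
  have hind : ffcoInd (⇑ρ) c ∈ Algebra.adjoin (FfcoW 𝔸) (ffcoGen (⇑ρ) z : Set (M → FfQb)) :=
    Algebra.subset_adjoin (Finset.mem_coe.2 (ffcoInd_mem_gen _ _ c))
  unfold ffcoR at hf
  induction hf using Algebra.adjoin_induction with
  | mem f hf =>
    obtain ⟨j, rfl⟩ := hf
    rw [ffcoExt_Z]
    exact Subalgebra.mul_mem _ hind
      (Algebra.subset_adjoin (Finset.mem_coe.2 (ffco_z_mem_gen _ _ j)))
  | algebraMap w =>
    rw [ffcoExt_algebraMap]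
    exact Subalgebra.smul_mem _ hind w
  | add f g _ _ hf hg =>
    rw [ffcoExt_add]
    exact Subalgebra.add_mem _ hf hg
  | mul f g _ _ hf hg =>
    rw [ffcoExt_mul]
    exact Subalgebra.mul_mem _ hf hg

/-- the function `(x, y) ↦ z j (x + y)` on `X_c × X_c'`, with values in `↥𝔸` -/
def ffcoSum (c c' : C) (j : J) : FfcoFib ρ c × FfcoFib ρ c' → ↥𝔸 :=
  fun p => ⟨z j (p.1.1 + p.2.1), hval j _⟩

/-- **the key property from the engine's output**: if `(x, y) ↦ z j (x + y)` lies in the ring of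
functions on `X_c × X_c'` generated by `R_c` and `R_c'`, then it is `∑ i, a i x * b i y` with
`a i, b i ∈ W[Gen]` (extended by zero). -/
theorem ffco_key_of_prod (c c' : C) (j : J)
    (h : ffcoSum 𝔸 ρ z hval c c' j ∈ fffrProd (ffcoR 𝔸 ρ z hval c) (ffcoR 𝔸 ρ z hval c')) :
    ∃ (n : ℕ) (a b : Fin n → M → FfQb),
      (∀ i, a i ∈ Algebra.adjoin (FfcoW 𝔸) (ffcoGen (⇑ρ) z : Set (M → FfQb)) ∧
        b i ∈ Algebra.adjoin (FfcoW 𝔸) (ffcoGen (⇑ρ) z : Set (M → FfQb))) ∧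
      ∀ m m', ρ m = c → ρ m' = c' → z j (m + m') = ∑ i, a i m * b i m' := by
  obtain ⟨n, a, b, hab⟩ := (fffr_mem_prod_iff _ _ _).1 h
  refine ⟨n, fun i => ffcoExt 𝔸 ρ c (a i).1, fun i => ffcoExt 𝔸 ρ c' (b i).1,
    fun i => ⟨ffco_ext_mem 𝔸 ρ z hval c (a i).2, ffco_ext_mem 𝔸 ρ z hval c' (b i).2⟩,
    fun m m' hm hm' => ?_⟩
  have h1 := congrArg (fun t : 𝔸 => (t : FfQb)) (hab ⟨m, hm⟩ ⟨m', hm'⟩)
  simp only [ffcoSum] at h1
  rw [h1]
  push_cast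
  refine Finset.sum_congr rfl fun i _ => ?_
  rw [ffcoExt_of_mem _ _ _ _ hm, ffcoExt_of_mem _ _ _ _ hm']

/-- **(CORE-OUT) from the engine's output on every pair of fibres.** -/
theorem ffco_out_of_prod
    (hρ : ∀ σ ∈ 𝔸.inertiaSubgroupIn ℚ, ∀ m, ρ (act σ m) = ρ m)
    (hequiv : ∀ j, ∀ σ ∈ 𝔸.inertiaSubgroupIn ℚ, ∀ m, z j (act σ m) = σ (z j m))
    (hinj : ∀ m m', ρ m = ρ m' → (∀ j, z j m = z j m') → m = m')
    (hprod : ∀ (c c' : C) (j : J),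
      ffcoSum 𝔸 ρ z hval c c' j ∈ fffrProd (ffcoR 𝔸 ρ z hval c) (ffcoR 𝔸 ρ z hval c')) :
    FfcoOut act 𝔸 (ffcoGen (⇑ρ) z) :=
  ffco_out_of_key act 𝔸 ρ z hρ hval hequiv hinj fun c c' j =>
    ffco_key_of_prod 𝔸 ρ z hval c c' j (hprod c c' j)

end Fib

/-! ### the interface literal `FfCoreOut` of `FF/Spec2.lean` -/

/-- `FfcoOut` is (CORE-OUT) in the literal of `FF/Spec2.lean`. -/
theorem FfcoOut.coreOut {Gen : Finset (M → FfQb)} (h : FfcoOut act 𝔸 Gen) :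
    FfCoreOut 𝔸 M act := by
  refine ⟨Gen, h.val, h.equiv, h.sep, fun φ hφ => ?_⟩
  obtain ⟨n, a, b, hab, hsum⟩ := h.comul φ hφ
  exact ⟨n, fun i => ⟨a i, (hab i).1⟩, fun i => ⟨b i, (hab i).2⟩, hsum⟩

end Fermat.Agent.FF
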